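-- Project H (S43), LAYER 4: **the statement consumed from block LGC** (local–global compatibility at a
-- point of the Hecke algebra), in the vocabulary of B1 (helper3) and of the hub.
--
-- Per-point data: a complete DVR `𝒪'` of characteristic zero and residue characteristic `p ≥ 5`, a
-- squarefree level `M` prime to `p`, a finite commutative `p`-group `G` with `χ : (ℤ/M)ˣ → G`, a
-- character `ψ : G → 𝒪'ˣ` (the nebentypus of the point is `ψ ∘ χ`), a nonzero class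
-- `c ∈ H¹(Γ₀(M), W)` (`W` a `K'`-vector space on which `G` acts through `ψ`) which is an eigenvector of
-- the `T_ℓ` with eigenvalues `a ℓ ∈ 𝒪'` (`ℓ ∉ S`), residually the Frobenius traces of an absolutely
-- irreducible `ρ₀` over `𝔽_p` which is non-Eisenstein at primes `ℓ₀ ≡ 1 (m)` for all `m`; and the Galois representation
-- `ρ` over `𝒪'` of the TWISTED eigensystem: `charpoly ρ(Frob_ℓ) = X² − ψ(g) a_ℓ X + ℓ` whenever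
-- `g² · χ(ℓ) = 1`.
--
-- Conclusion: for `v ∣ M` prime, `v ∉ {2, p}`, `σ` in an inertia group at `v`, `u ∈ (ℤ/M)ˣ` the unit
-- which is `cyc_v(σ)` modulo `v` and `1` modulo `M / v`, and `g ∈ G` with `g² = χ(u)`:
--     `tr ρ(σ) = ψ(g) + ψ(g)⁻¹`.
import Mathlib
import Fermat.Agent.S43lib.B1.Iface
import Fermat.Agent.S56lib.TW.Cyclo
import Fermat.Agent.TeamA.MatRep

set_option autoImplicit false
set_option linter.unusedSectionVars false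

noncomputable section

namespace Fermat.Agent.S43lib.Mod4

open IsLocalRing Polynomial Fermat.Agent.S43lib.B1 Fermat.Agent.S56lib.TW ExtCitation

/-- `G_ℚ` -/
local notation "GQ" => (AlgebraicClosure ℚ ≃ₐ[ℚ] AlgebraicClosure ℚ)

/-- **Block LGC, per point.** -/
def LGCPointStmt : Prop :=
  ∀ {p : ℕ} [Fact p.Prime], 5 ≤ p →
  ∀ {𝒪' : Type} [CommRing 𝒪'] [IsDomain 𝒪'] [IsDiscreteValuationRing 𝒪']
    [IsAdicComplete (maximalIdeal 𝒪') 𝒪'] [Finite (ResidueField 𝒪')] [CharZero 𝒪'],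
    (p : 𝒪') ∈ maximalIdeal 𝒪' →
  ∀ {K' : Type} [Field K'] [Algebra 𝒪' K'] [IsFractionRing 𝒪' K']
    {M : ℕ} [NeZero M], Squarefree M → ¬ p ∣ M →
  ∀ {G : Type} [CommGroup G] [Fintype G], IsPGroup p G →
  ∀ (χ : (ZMod M)ˣ →* G) (ψ : G →* 𝒪'ˣ)
    (W : Type) [AddCommGroup W] [Module K' W] [DistribMulAction G W] [SMulCommClass G K' W]
    [IsAddTorsionFree W],
    (∀ (g : G) (w : W), g • w = algebraMap 𝒪' K' (ψ g : 𝒪') • w) →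
  ∀ (S : Finset ℕ), p ∈ S → (∀ ℓ : ℕ, ℓ.Prime → ℓ ∣ M → ℓ ∈ S) →
  ∀ (c : H1 (levelPi χ) K' W), c ≠ 0 →
  ∀ (a : ℕ → 𝒪'),
    (∀ (ℓ : ℕ) [Fact ℓ.Prime] (hℓ : ¬ ℓ ∣ M), ℓ ∉ S →
      heckeH K' W (isEquivariant_levelPi χ (nData_equivariant hℓ)) c =
        algebraMap 𝒪' K' (a ℓ) • c) →
  -- the residual representation
  ∀ (ρ₀ : ResidualGaloisRep (ZMod p)), ρ₀.IsIrreducible →
  ∀ (a₀ : ℕ → ℤ) (S₀ : Finset ℕ),
    (∀ ℓ : ℕ, ℓ.Prime → ℓ ∉ S₀ → ∀ A : ValuationSubring (AlgebraicClosure ℚ), A.LiesOverPrime ℓ →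
      ∀ φ : GQ, A.IsFrobeniusAt φ ℓ →
        LinearMap.charpoly (ρ₀.ρ φ) =
          X ^ 2 - C ((a₀ ℓ : ℤ) : ZMod p) * X + C ((ℓ : ℕ) : ZMod p)) →
    (∀ ℓ : ℕ, ℓ.Prime → ℓ ∉ S → ℓ ∉ S₀ →
      residue 𝒪' (a ℓ) = ((a₀ ℓ : ℤ) : ResidueField 𝒪')) →
  -- non-Eisenstein primes, as deep as one wants
  (∀ m : ℕ, 0 < m → ∀ S₁ : Finset ℕ,
    ∃ (ℓ₀ : ℕ) (A : ValuationSubring (AlgebraicClosure ℚ)) (φ : GQ), ℓ₀.Prime ∧ ℓ₀ ∉ S₁ ∧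
      m ∣ ℓ₀ - 1 ∧ A.LiesOverPrime ℓ₀ ∧ A.IsFrobeniusAt φ ℓ₀ ∧
      (LinearMap.charpoly (ρ₀.ρ φ)).eval 1 ≠ 0) →
  -- the Galois representation of the twisted eigensystem
  ∀ (ρ : GaloisRepAdic 𝒪'),
    (∀ (ℓ : ℕ) (_ : ℓ.Prime) (hℓM : ℓ.Coprime M), ℓ ∉ S → ∀ g : G,
      g * g * χ (ZMod.unitOfCoprime ℓ hℓM) = 1 →
      ∀ A : ValuationSubring (AlgebraicClosure ℚ), A.LiesOverPrime ℓ →
      ∀ φ : GQ, A.IsFrobeniusAt φ ℓ →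
        LinearMap.charpoly (ρ.ρ φ) = X ^ 2 - C ((ψ g : 𝒪') * a ℓ) * X + C ((ℓ : ℕ) : 𝒪')) →
    Submodule.span 𝒪' (Set.range ρ.ρ) = (⊤ : Submodule 𝒪' (Module.End 𝒪' ρ.V)) →
  -- the conclusion at a prime `v ∥ M`
  ∀ (v : ℕ) [Fact v.Prime] (hvM : v ∣ M), v ≠ 2 → v ≠ p →
  ∀ A : ValuationSubring (AlgebraicClosure ℚ), A.LiesOverPrime v →
  ∀ σ ∈ A.inertiaSubgroupIn ℚ,
  ∀ u : (ZMod M)ˣ, ZMod.unitsMap hvM u = cycloChar v σ →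
    ZMod.unitsMap (Nat.div_dvd_of_dvd hvM) u = 1 →
  ∀ g : G, g * g = χ u →
    ρ.trace σ = (ψ g : 𝒪') + ((ψ g)⁻¹ : 𝒪'ˣ)

end Fermat.Agent.S43lib.Mod4
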