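-- Project H (S43), LAYER 4, brick (A3) FREE on top of helper1's `Loc/HeckeAlg.lean`:
-- the group-ring structure maps `𝒪[G₀] → 𝕋`, `Λ[Δ] → 𝕋` (`Λ = 𝒪[G₀]`) of the abstract Hecke algebra
-- `H.hecke J'` of `H : AbsHecke 𝒪 (G₀ × Δ) J`, and: a basis of `H.Mod` over the regular representation
-- of `G₀ × Δ` is a basis over `Λ[Δ]`.
import Mathlib
import Fermat.Agent.S43lib.Loc.HeckeAlg
import Fermat.Agent.S43lib.Loc.GroupRingDelta
import Fermat.Agent.S43lib.Loc.GroupRingProd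

set_option autoImplicit false
set_option linter.unusedSectionVars false
set_option linter.style.haveILetI false

noncomputable section

namespace Fermat.Agent.S43lib.Mod4

open IsLocalRing MvPolynomial Fermat.Agent.S43lib.Loc

/-! ### functions on a finite group as elements of the group ring -/

section FunMA

variable {𝒪 : Type} [CommRing 𝒪] {G : Type} [CommGroup G] [Fintype G]

/-- a function on `G` as an element of `𝒪[G]` -/
def funMA : (G → 𝒪) ≃ MonoidAlgebra 𝒪 G :=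
  (Finsupp.equivFunOnFinite.symm.trans MonoidAlgebra.coeffEquiv.symm)

theorem funMA_eq (f : G → 𝒪) : funMA f = ∑ g, f g • MonoidAlgebra.of 𝒪 G g := by
  apply MonoidAlgebra.coeff_injective
  rw [MonoidAlgebra.coeff_sum]
  show Finsupp.equivFunOnFinite.symm f = _
  rw [Finsupp.equivFunOnFinite_symm_eq_sum]
  refine Finset.sum_congr rfl fun g _ => ?_
  rw [MonoidAlgebra.coeff_smul, MonoidAlgebra.of_apply, MonoidAlgebra.coeff_single,
    Finsupp.smul_single, smul_eq_mul, mul_one]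

end FunMA

/-! ### a generic criterion for a homomorphism of local rings to be local -/

/-- a homomorphism `f : A → B` of local rings over a local ring `𝒪`, `A` integral over `𝒪` and
`𝒪 → B` local, maps the maximal ideal into the maximal ideal -/
theorem map_mem_maximalIdeal_of_integral {𝒪 A B : Type*} [CommRing 𝒪] [IsLocalRing 𝒪] [CommRing A]
    [IsLocalRing A] [CommRing B] [IsLocalRing B] [Algebra 𝒪 A] [Algebra.IsIntegral 𝒪 A]
    (f : A →+* B)
    (h : ∀ a ∈ maximalIdeal 𝒪, f (algebraMap 𝒪 A a) ∈ maximalIdeal B) {x : A}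
    (hx : x ∈ maximalIdeal A) : f x ∈ maximalIdeal B := by
  set P : Ideal A := (maximalIdeal B).comap f with hP
  haveI : P.IsPrime := Ideal.comap_isPrime f _
  have h1 : P.comap (algebraMap 𝒪 A) = maximalIdeal 𝒪 := by
    refine (eq_maximalIdeal ?_)
    have hle : maximalIdeal 𝒪 ≤ P.comap (algebraMap 𝒪 A) := fun a ha => h a ha
    have hne : P.comap (algebraMap 𝒪 A) ≠ ⊤ := (Ideal.comap_isPrime _ P).ne_top
    rw [← (maximalIdeal.isMaximal 𝒪).eq_of_le hne hle]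
    exact maximalIdeal.isMaximal 𝒪
  have h2 : P.IsMaximal :=
    Ideal.isMaximal_of_isIntegral_of_isMaximal_comap P (by rw [h1]; exact maximalIdeal.isMaximal 𝒪)
  have h3 : P = maximalIdeal A := eq_maximalIdeal h2
  rw [← h3] at hx
  exact hx

/-! ### the group ring maps -/

section Lam

variable {𝒪 : Type} [CommRing 𝒪] [IsLocalRing 𝒪] {G : Type} [CommGroup G] {J : Type}
  (H : AbsHecke 𝒪 G J) (J' : Set J) {G₀ : Type} [CommGroup G₀] (φ : G₀ →* G)

/-- the map `𝒪[G₀] → 𝕋` induced by a homomorphism `φ : G₀ → G` to the diamond group -/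
def lamHom : MonoidAlgebra 𝒪 G₀ →ₐ[𝒪] H.hecke J' :=
  MonoidAlgebra.lift 𝒪 (H.hecke J') G₀ ((H.tG J').comp φ)

theorem lamHom_of (g : G₀) : lamHom H J' φ (MonoidAlgebra.of 𝒪 G₀ g) = H.tG J' (φ g) := by
  rw [lamHom, MonoidAlgebra.lift_of]
  rfl

theorem lamHom_funMA_smul [Fintype G₀] (f : G₀ → 𝒪) (m : H.Mod) :
    lamHom H J' φ (funMA f) • m = ∑ g, f g • H.act (φ g) m := by
  rw [funMA_eq, map_sum, Finset.sum_smul]
  refine Finset.sum_congr rfl fun g _ => ?_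
  rw [map_smul, lamHom_of, smul_assoc, AbsHecke.tG_smul]

/-- the `𝒪[G₀]`-algebra structure of the Hecke algebra -/
@[reducible] def lamAlgebra : Algebra (MonoidAlgebra 𝒪 G₀) (H.hecke J') :=
  (lamHom H J' φ).toRingHom.toAlgebra

theorem lamAlgebra_algebraMap (x : MonoidAlgebra 𝒪 G₀) :
    letI := lamAlgebra H J' φ
    algebraMap (MonoidAlgebra 𝒪 G₀) (H.hecke J') x = lamHom H J' φ x := rfl

theorem lamAlgebra_isScalarTower :
    letI := lamAlgebra H J' φ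
    IsScalarTower 𝒪 (MonoidAlgebra 𝒪 G₀) (H.hecke J') := by
  letI := lamAlgebra H J' φ
  refine IsScalarTower.of_algebraMap_eq fun a => ?_
  rw [lamAlgebra_algebraMap, AlgHom.commutes]

end Lam

/-! ### the level `Q`: `G = G₀ × Δ` -/

section Prod

variable {𝒪 : Type} [CommRing 𝒪] [IsLocalRing 𝒪] {G₀ Δ : Type} [CommGroup G₀] [CommGroup Δ]
  {J : Type} (H : AbsHecke 𝒪 (G₀ × Δ) J) (J' : Set J)

/-- the `Λ`-algebra structure (`Λ = 𝒪[G₀]`) of the Hecke algebra at level `Q` -/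
@[reducible] def lamAlgebraQ : Algebra (MonoidAlgebra 𝒪 G₀) (H.hecke J') :=
  lamAlgebra H J' (MonoidHom.inl G₀ Δ)

attribute [local instance] lamAlgebraQ

theorem algebraMap_of_Q (g : G₀) :
    algebraMap (MonoidAlgebra 𝒪 G₀) (H.hecke J') (MonoidAlgebra.of 𝒪 G₀ g) = H.tG J' (g, 1) :=
  lamHom_of H J' (MonoidHom.inl G₀ Δ) g

theorem isScalarTower_Q : IsScalarTower 𝒪 (MonoidAlgebra 𝒪 G₀) (H.hecke J') :=
  lamAlgebra_isScalarTower H J' (MonoidHom.inl G₀ Δ)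

/-- `ι : Λ[Δ] → 𝕋_Q` -/
def iotaHom : MonoidAlgebra (MonoidAlgebra 𝒪 G₀) Δ →ₐ[MonoidAlgebra 𝒪 G₀] H.hecke J' :=
  MonoidAlgebra.lift (MonoidAlgebra 𝒪 G₀) (H.hecke J') Δ ((H.tG J').comp (MonoidHom.inr G₀ Δ))

theorem iotaHom_of (δ : Δ) :
    iotaHom H J' (MonoidAlgebra.of (MonoidAlgebra 𝒪 G₀) Δ δ) = H.tG J' (1, δ) := by
  rw [iotaHom, MonoidAlgebra.lift_of]
  rfl

/-- `ι ∘ (𝒪[G₀ × Δ] ≃ Λ[Δ])` is the natural map -/
theorem iotaHom_prodAlgEquiv (y : MonoidAlgebra 𝒪 (G₀ × Δ)) :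
    iotaHom H J' (prodAlgEquiv 𝒪 G₀ Δ y) = lamHom H J' (MonoidHom.id (G₀ × Δ)) y := by
  haveI := isScalarTower_Q H J'
  have h : ((iotaHom H J').restrictScalars 𝒪).comp (prodAlgEquiv 𝒪 G₀ Δ : _ →ₐ[𝒪] _) =
      lamHom H J' (MonoidHom.id (G₀ × Δ)) := by
    refine MonoidAlgebra.algHom_ext ?_ (Subsingleton.elim _ _)
    rintro ⟨g, δ⟩
    rw [AlgHom.comp_apply, ← MonoidAlgebra.of_apply]
    show iotaHom H J' (prodAlgEquiv 𝒪 G₀ Δ (MonoidAlgebra.of 𝒪 (G₀ × Δ) (g, δ))) = _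
    rw [prodAlgEquiv_of, map_mul, iotaHom_of, AlgHom.commutes, algebraMap_of_Q,
      lamHom_of, ← map_mul]
    congr 1
    ext <;> simp
  exact congrArg (fun f : MonoidAlgebra 𝒪 (G₀ × Δ) →ₐ[𝒪] H.hecke J' => f y) h

variable [Fintype G₀] [Fintype Δ]

/-- the identification of the regular representation with `Λ[Δ]` -/
def regEquiv : (G₀ × Δ → 𝒪) ≃ MonoidAlgebra (MonoidAlgebra 𝒪 G₀) Δ :=
  funMA.trans (prodAlgEquiv 𝒪 G₀ Δ).toEquiv

theorem iotaHom_regEquiv_smul (f : G₀ × Δ → 𝒪) (m : H.Mod) :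
    iotaHom H J' (regEquiv f) • m = ∑ g, f g • H.act g m := by
  show iotaHom H J' (prodAlgEquiv 𝒪 G₀ Δ (funMA f)) • m = _
  rw [iotaHom_prodAlgEquiv, lamHom_funMA_smul]
  rfl

/-- **a basis over the regular representation is a basis over `Λ[Δ]`** -/
theorem free_of_reg {d : ℕ} (b : Fin d → H.Mod)
    (hfree : ∀ x, ∃! c : Fin d → (G₀ × Δ → 𝒪), x = ∑ i, ∑ g, c i g • H.act g (b i)) (x : H.Mod) :
    ∃! c : Fin d → MonoidAlgebra (MonoidAlgebra 𝒪 G₀) Δ, x = ∑ i, iotaHom H J' (c i) • b i := by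
  obtain ⟨c, hc, huniq⟩ := hfree x
  refine ⟨fun i => regEquiv (c i), ?_, fun c' hc' => ?_⟩
  · beta_reduce
    rw [hc]
    exact Finset.sum_congr rfl fun i _ => (iotaHom_regEquiv_smul H J' (c i) (b i)).symm
  · have h1 : (fun i => regEquiv.symm (c' i)) = c := by
      apply huniq
      rw [hc']
      refine Finset.sum_congr rfl fun i _ => ?_
      rw [← iotaHom_regEquiv_smul H J', Equiv.apply_symm_apply]
    funext i
    rw [← h1, Equiv.apply_symm_apply]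

theorem iotaHom_algebraMap (a : 𝒪) :
    iotaHom H J' (algebraMap 𝒪 (MonoidAlgebra (MonoidAlgebra 𝒪 G₀) Δ) a) =
      algebraMap 𝒪 (H.hecke J') a := by
  haveI := isScalarTower_Q H J'
  rw [IsScalarTower.algebraMap_apply 𝒪 (MonoidAlgebra 𝒪 G₀) (MonoidAlgebra (MonoidAlgebra 𝒪 G₀) Δ),
    AlgHom.commutes, ← IsScalarTower.algebraMap_apply]

/-- `ι` is local -/
theorem iotaHom_local [IsNoetherianRing 𝒪] {p : ℕ} (hH : H.Good p) [IsLocalRing (H.hecke J')]
    [IsLocalRing (MonoidAlgebra (MonoidAlgebra 𝒪 G₀) Δ)]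
    {x : MonoidAlgebra (MonoidAlgebra 𝒪 G₀) Δ}
    (hx : x ∈ maximalIdeal (MonoidAlgebra (MonoidAlgebra 𝒪 G₀) Δ)) :
    iotaHom H J' x ∈ maximalIdeal (H.hecke J') := by
  haveI := H.isLocalHom_algebraMap_hecke J' hH
  refine map_mem_maximalIdeal_of_integral (𝒪 := 𝒪) (iotaHom H J' : _ →+* H.hecke J') ?_ hx
  intro a ha
  rw [RingHom.coe_coe, iotaHom_algebraMap]
  rw [mem_maximalIdeal, mem_nonunits_iff] at ha ⊢
  exact fun h => ha (isUnit_of_map_unit (algebraMap 𝒪 (H.hecke J')) a h)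

/-- `Λ → 𝕋_Q` is local -/
theorem algebraMap_Q_local [IsNoetherianRing 𝒪] {p : ℕ} (hH : H.Good p) [IsLocalRing (H.hecke J')]
    [IsLocalRing (MonoidAlgebra 𝒪 G₀)] {x : MonoidAlgebra 𝒪 G₀}
    (hx : x ∈ maximalIdeal (MonoidAlgebra 𝒪 G₀)) :
    algebraMap (MonoidAlgebra 𝒪 G₀) (H.hecke J') x ∈ maximalIdeal (H.hecke J') := by
  haveI := H.isLocalHom_algebraMap_hecke J' hH
  haveI := isScalarTower_Q H J'
  refine map_mem_maximalIdeal_of_integral (𝒪 := 𝒪)
    (algebraMap (MonoidAlgebra 𝒪 G₀) (H.hecke J')) ?_ hx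
  intro a ha
  rw [← IsScalarTower.algebraMap_apply]
  rw [mem_maximalIdeal, mem_nonunits_iff] at ha ⊢
  exact fun h => ha (isUnit_of_map_unit (algebraMap 𝒪 (H.hecke J')) a h)

end Prod

end Fermat.Agent.S43lib.Mod4
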