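-- Project H (S43), LAYER 4, brick (A4) CONTROL on top of helper1's `Loc/HeckeAlg.lean`:
-- from a surjection `v : M_Q → M_∅` of abstract Hecke modules, semilinear for `G₀ × Δ → G₀` and
-- commuting with the `X_j` (`j ∈ J'`), the homomorphism `e₀ : 𝕋_Q → 𝕋_∅` of Hecke algebras with
-- `v (t • x) = e₀ t • v x`, and the kernel of `v` in ideal form.
import Mathlib
import Fermat.Agent.S43lib.Mod4.HeckeFree

set_option autoImplicit false
set_option linter.unusedSectionVars false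
set_option linter.style.haveILetI false

noncomputable section

namespace Fermat.Agent.S43lib.Mod4

open IsLocalRing MvPolynomial Fermat.Agent.S43lib.Loc

section Ctrl

variable {𝒪 : Type} [CommRing 𝒪] [IsLocalRing 𝒪] {G₀ Δ : Type} [CommGroup G₀] [CommGroup Δ]
  {J : Type} (H : AbsHecke 𝒪 (G₀ × Δ) J) (H₀ : AbsHecke 𝒪 G₀ J) {J' J₀' : Set J} (hJ : J' ⊆ J₀')

/-- the map of symbol rings `X_j ↦ X_j`, `[(g, δ)] ↦ [g]` -/
def symMap : AbsHecke.Sym 𝒪 (G₀ × Δ) J' →ₐ[𝒪] AbsHecke.Sym 𝒪 G₀ J₀' :=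
  MvPolynomial.aeval (Sum.elim (fun j : ↥J' => X (Sum.inl ⟨j.1, hJ j.2⟩))
    (fun g : G₀ × Δ => X (Sum.inr g.1)))

theorem symMap_X_inl (j : ↥J') :
    symMap (𝒪 := 𝒪) (G₀ := G₀) (Δ := Δ) hJ (X (Sum.inl j)) = X (Sum.inl ⟨j.1, hJ j.2⟩) := by
  rw [symMap, aeval_X, Sum.elim_inl]

theorem symMap_X_inr (g : G₀ × Δ) :
    symMap (𝒪 := 𝒪) (J' := J') (J₀' := J₀') hJ (X (Sum.inr g)) = X (Sum.inr g.1) := by
  rw [symMap, aeval_X, Sum.elim_inr]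

variable (v : H.Mod →+ H₀.Mod)
  (hv𝒪 : ∀ (a : 𝒪) (y : H.Mod), v (a • y) = a • v y)
  (hvX : ∀ j ∈ J', ∀ y : H.Mod,
    v ((X j : MvPolynomial J 𝒪) • y) = (X j : MvPolynomial J 𝒪) • v y)
  (hvG : ∀ (g : G₀ × Δ) (y : H.Mod), v (H.act g y) = H₀.act g.1 (v y))

include hv𝒪 hvX hvG in
theorem v_heckeMk_smul (s : AbsHecke.Sym 𝒪 (G₀ × Δ) J') :
    ∀ y : H.Mod, v (H.heckeMk J' s • y) = H₀.heckeMk J₀' (symMap hJ s) • v y := by
  induction s using MvPolynomial.induction_on with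
  | C a =>
    intro y
    rw [← MvPolynomial.algebraMap_eq, AlgHom.commutes, AlgHom.commutes, AlgHom.commutes,
      algebraMap_smul, algebraMap_smul, hv𝒪]
  | add s t hs ht =>
    intro y
    rw [map_add, add_smul, map_add, hs, ht, map_add, map_add, add_smul]
  | mul_X s i hs =>
    intro y
    rw [map_mul, mul_smul, hs, map_mul, map_mul, mul_smul]
    congr 1
    rcases i with j | g
    · rw [symMap_X_inl, AbsHecke.heckeMk_X_inl, AbsHecke.heckeMk_X_inl, AbsHecke.tX_smul,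
        AbsHecke.tX_smul, hvX j.1 j.2]
    · rw [symMap_X_inr, AbsHecke.heckeMk_X_inr, AbsHecke.heckeMk_X_inr, AbsHecke.tG_smul,
        AbsHecke.tG_smul, hvG]

variable (hsurj : Function.Surjective v)

include hv𝒪 hvX hvG hsurj in
theorem heckeMk_symMap_eq_zero {s : AbsHecke.Sym 𝒪 (G₀ × Δ) J'}
    (hs : s ∈ RingHom.ker (H.symEnd J')) : H₀.heckeMk J₀' (symMap hJ s) = 0 := by
  apply H₀.hecke_ext J₀'
  intro m₀
  obtain ⟨m, rfl⟩ := hsurj m₀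
  rw [← v_heckeMk_smul H H₀ hJ v hv𝒪 hvX hvG s m, zero_smul]
  have h0 : H.heckeMk J' s = 0 := by
    show Ideal.Quotient.mk (RingHom.ker (H.symEnd J')) s = 0
    exact Ideal.Quotient.eq_zero_iff_mem.mpr hs
  rw [h0, zero_smul, map_zero]

/-- **the homomorphism of Hecke algebras `𝕋_Q → 𝕋_∅`** -/
def e₀𝒪 : H.hecke J' →ₐ[𝒪] H₀.hecke J₀' :=
  Ideal.Quotient.liftₐ (RingHom.ker (H.symEnd J')) ((H₀.heckeMk J₀').comp (symMap hJ))
    (fun _ hs => heckeMk_symMap_eq_zero H H₀ hJ v hv𝒪 hvX hvG hsurj hs)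

theorem e₀𝒪_heckeMk (s : AbsHecke.Sym 𝒪 (G₀ × Δ) J') :
    e₀𝒪 H H₀ hJ v hv𝒪 hvX hvG hsurj (H.heckeMk J' s) = H₀.heckeMk J₀' (symMap hJ s) :=
  Ideal.Quotient.liftₐ_apply _ _ _ _

theorem e₀𝒪_tX (j : J) (hj : j ∈ J') :
    e₀𝒪 H H₀ hJ v hv𝒪 hvX hvG hsurj (H.tX J' j hj) = H₀.tX J₀' j (hJ hj) := by
  rw [AbsHecke.tX, e₀𝒪_heckeMk, symMap_X_inl]
  rfl

theorem e₀𝒪_tG (g : G₀ × Δ) :
    e₀𝒪 H H₀ hJ v hv𝒪 hvX hvG hsurj (H.tG J' g) = H₀.tG J₀' g.1 := by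
  rw [AbsHecke.tG_apply, e₀𝒪_heckeMk, symMap_X_inr]
  rfl

theorem v_smul_e₀ (t : H.hecke J') (x : H.Mod) :
    v (t • x) = e₀𝒪 H H₀ hJ v hv𝒪 hvX hvG hsurj t • v x := by
  obtain ⟨s, rfl⟩ := H.heckeMk_surjective J' t
  rw [e₀𝒪_heckeMk]
  exact v_heckeMk_smul H H₀ hJ v hv𝒪 hvX hvG s x

/-- the `Λ`-algebra structure of the base Hecke algebra -/
@[reducible] def lamAlgebra0 : Algebra (MonoidAlgebra 𝒪 G₀) (H₀.hecke J₀') :=
  lamAlgebra H₀ J₀' (MonoidHom.id G₀)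

attribute [local instance] lamAlgebraQ lamAlgebra0

theorem algebraMap_of_0 (g : G₀) :
    algebraMap (MonoidAlgebra 𝒪 G₀) (H₀.hecke J₀') (MonoidAlgebra.of 𝒪 G₀ g) = H₀.tG J₀' g :=
  lamHom_of H₀ J₀' (MonoidHom.id G₀) g

theorem isScalarTower_0 : IsScalarTower 𝒪 (MonoidAlgebra 𝒪 G₀) (H₀.hecke J₀') :=
  lamAlgebra_isScalarTower H₀ J₀' (MonoidHom.id G₀)

theorem e₀𝒪_algebraMap (x : MonoidAlgebra 𝒪 G₀) :
    e₀𝒪 H H₀ hJ v hv𝒪 hvX hvG hsurj (algebraMap (MonoidAlgebra 𝒪 G₀) (H.hecke J') x) =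
      algebraMap (MonoidAlgebra 𝒪 G₀) (H₀.hecke J₀') x := by
  have h : (e₀𝒪 H H₀ hJ v hv𝒪 hvX hvG hsurj).comp (lamHom H J' (MonoidHom.inl G₀ Δ)) =
      lamHom H₀ J₀' (MonoidHom.id G₀) := by
    refine MonoidAlgebra.algHom_ext ?_ (Subsingleton.elim _ _)
    intro g
    rw [AlgHom.comp_apply, ← MonoidAlgebra.of_apply, lamHom_of, lamHom_of, e₀𝒪_tG]
    rfl
  exact congrArg (fun f : MonoidAlgebra 𝒪 G₀ →ₐ[𝒪] H₀.hecke J₀' => f x) h

/-- **`e₀ : 𝕋_Q → 𝕋_∅`** as a homomorphism of `Λ`-algebras -/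
def e₀ : H.hecke J' →ₐ[MonoidAlgebra 𝒪 G₀] H₀.hecke J₀' :=
  { (e₀𝒪 H H₀ hJ v hv𝒪 hvX hvG hsurj : H.hecke J' →+* H₀.hecke J₀') with
    commutes' := e₀𝒪_algebraMap H H₀ hJ v hv𝒪 hvX hvG hsurj }

theorem e₀_apply (t : H.hecke J') :
    e₀ H H₀ hJ v hv𝒪 hvX hvG hsurj t = e₀𝒪 H H₀ hJ v hv𝒪 hvX hvG hsurj t := rfl

theorem e₀_tX (j : J) (hj : j ∈ J') :
    e₀ H H₀ hJ v hv𝒪 hvX hvG hsurj (H.tX J' j hj) = H₀.tX J₀' j (hJ hj) :=
  e₀𝒪_tX H H₀ hJ v hv𝒪 hvX hvG hsurj j hj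

theorem e₀_tG (g : G₀ × Δ) :
    e₀ H H₀ hJ v hv𝒪 hvX hvG hsurj (H.tG J' g) = H₀.tG J₀' g.1 :=
  e₀𝒪_tG H H₀ hJ v hv𝒪 hvX hvG hsurj g

theorem v_smul (t : H.hecke J') (x : H.Mod) :
    v (t • x) = e₀ H H₀ hJ v hv𝒪 hvX hvG hsurj t • v x :=
  v_smul_e₀ H H₀ hJ v hv𝒪 hvX hvG hsurj t x

end Ctrl

/-! ### the kernel of `v` -/

section Ker

variable {𝒪 : Type} [CommRing 𝒪] [IsLocalRing 𝒪] {G₀ : Type} [CommGroup G₀]
  (p : ℕ) [hp : Fact p.Prime] {m : ℕ} (a : Fin m → ℕ)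
  {J : Type} (H : AbsHecke 𝒪 (G₀ × DeltaGrp p a) J) (H₀ : AbsHecke 𝒪 G₀ J) {J' J₀' : Set J}
  (hJ : J' ⊆ J₀') (v : H.Mod →+ H₀.Mod)
  (hv𝒪 : ∀ (a : 𝒪) (y : H.Mod), v (a • y) = a • v y)
  (hvX : ∀ j ∈ J', ∀ y : H.Mod,
    v ((X j : MvPolynomial J 𝒪) • y) = (X j : MvPolynomial J 𝒪) • v y)
  (hvG : ∀ (g : G₀ × DeltaGrp p a) (y : H.Mod), v (H.act g y) = H₀.act g.1 (v y))
  (hsurj : Function.Surjective v)
  (hker : ∀ y, v y = 0 ↔ y ∈ AddSubgroup.closure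
    {x | ∃ δ : G₀ × DeltaGrp p a, δ.1 = 1 ∧ ∃ y', x = H.act δ y' - y'})

attribute [local instance] lamAlgebraQ lamAlgebra0

/-- the ideal of `𝕋_Q` generated by the `δ_i − 1` -/
def augIdeal : Ideal (H.hecke J') :=
  Ideal.span (Set.range fun i : Fin m =>
    iotaHom H J' ((deltaUnit p a (MonoidAlgebra 𝒪 G₀) i :
      (MonoidAlgebra (MonoidAlgebra 𝒪 G₀) (DeltaGrp p a))ˣ) :
        MonoidAlgebra (MonoidAlgebra 𝒪 G₀) (DeltaGrp p a)) - 1)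

theorem iotaHom_deltaUnit (i : Fin m) :
    iotaHom H J' ((deltaUnit p a (MonoidAlgebra 𝒪 G₀) i :
      (MonoidAlgebra (MonoidAlgebra 𝒪 G₀) (DeltaGrp p a))ˣ) :
        MonoidAlgebra (MonoidAlgebra 𝒪 G₀) (DeltaGrp p a)) = H.tG J' (1, deltaGen p a i) := by
  rw [coe_deltaUnit, iotaHom_of]

theorem tG_sub_one_mem_augIdeal (d : DeltaGrp p a) :
    H.tG J' (1, d) - 1 ∈ augIdeal p a H (J' := J') := by
  -- the set of `d` with `[d] − 1 ∈ I` is a submonoid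
  let S : Submonoid (DeltaGrp p a) :=
    { carrier := {d | H.tG J' (1, d) - 1 ∈ augIdeal p a H (J' := J')}
      one_mem' := by
        show H.tG J' (1, 1) - 1 ∈ augIdeal p a H (J' := J')
        rw [show ((1 : G₀), (1 : DeltaGrp p a)) = 1 from rfl, map_one, sub_self]
        exact Ideal.zero_mem _
      mul_mem' := by
        intro x y hx hy
        show H.tG J' (1, x * y) - 1 ∈ augIdeal p a H (J' := J')
        have h1 : ((1 : G₀), x * y) = (1, x) * (1, y) := by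
          ext <;> simp
        have h2 : H.tG J' ((1, x) * (1, y)) - 1 =
            H.tG J' (1, x) * (H.tG J' (1, y) - 1) + (H.tG J' (1, x) - 1) := by
          rw [map_mul]
          ring
        rw [h1, h2]
        exact Ideal.add_mem _ (Ideal.mul_mem_left _ _ hy) hx }
  show d ∈ S
  rw [eq_prod_deltaGen_pow p a d]
  refine Submonoid.prod_mem _ fun i _ => Submonoid.pow_mem _ ?_ _
  show H.tG J' (1, deltaGen p a i) - 1 ∈ augIdeal p a H (J' := J')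
  rw [← iotaHom_deltaUnit]
  exact Ideal.subset_span ⟨i, rfl⟩

include hJ hv𝒪 hvX hvG hsurj hker in
/-- **the kernel of `v` in ideal form** -/
theorem ker_v_iff (x : H.Mod) :
    v x = 0 ↔ x ∈ augIdeal p a H (J' := J') • (⊤ : Submodule (H.hecke J') H.Mod) := by
  constructor
  · intro hx
    rw [hker] at hx
    refine AddSubgroup.closure_induction (p := fun y _ =>
      y ∈ augIdeal p a H (J' := J') • (⊤ : Submodule (H.hecke J') H.Mod)) ?_ ?_ ?_ ?_ hx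
    · rintro y ⟨⟨g, d⟩, hg, y', rfl⟩
      have hg' : g = 1 := hg
      subst hg'
      have : H.act (1, d) y' - y' = (H.tG J' (1, d) - 1) • y' := by
        rw [sub_smul, one_smul, AbsHecke.tG_smul]
      rw [this]
      exact Submodule.smul_mem_smul (tG_sub_one_mem_augIdeal p a H d) Submodule.mem_top
    · exact Submodule.zero_mem _
    · intro y z _ _ hy hz
      exact Submodule.add_mem _ hy hz
    · intro y _ hy
      exact Submodule.neg_mem _ hy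
  · intro hx
    have hle : augIdeal p a H (J' := J') ≤
        RingHom.ker (e₀ H H₀ hJ v hv𝒪 hvX hvG hsurj : H.hecke J' →+* H₀.hecke J₀') := by
      unfold augIdeal
      rw [Ideal.span_le]
      rintro _ ⟨i, rfl⟩
      show (e₀ H H₀ hJ v hv𝒪 hvX hvG hsurj) _ = 0
      beta_reduce
      rw [iotaHom_deltaUnit, map_sub, e₀_tG, map_one, map_one, sub_self]
    refine Submodule.smul_induction_on hx ?_ ?_
    · intro r hr n _
      rw [v_smul H H₀ hJ v hv𝒪 hvX hvG hsurj]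
      have : e₀ H H₀ hJ v hv𝒪 hvX hvG hsurj r = 0 := hle hr
      rw [this, zero_smul]
    · intro y z hy hz
      rw [map_add, hy, hz, add_zero]

end Ker

end Fermat.Agent.S43lib.Mod4
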