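-- Project H (S43), LAYER 4, the hub of the Hecke side: the CONCRETE objects on which B1 (helper3),
-- BRIDGE (helper5), LGC and END meet.
--
-- * `Idx p M₀` : the index type of the Hecke operators, INDEPENDENT of the Taylor–Wiles set:
--   `T_ℓ` (`ℓ ∤ M₀ p`; it becomes `U_ℓ` at a level divisible by `ℓ`) and the diamonds `⟨n⟩`, `n` any
--   natural number prime to `M₀`.
-- * `idx₀ : Idx p M₀ → B1.LvlIdx M₀`, `idxQ hcop : Idx p M₀ → B1.LvlIdx (M₀ * Qp)` with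
--   `LvlIdx.down (idxQ i) = idx₀ i`.
-- * the points `ev₀`, `evQ` and their kernels.
import Mathlib
import Fermat.Agent.S43lib.B1.Iface

set_option autoImplicit false
set_option linter.unusedSectionVars false
set_option linter.style.haveILetI false

noncomputable section

namespace Fermat.Agent.S43lib.Mod4.HO

open IsLocalRing MvPolynomial Fermat.Agent.S43lib.B1

/-! ### Chinese remainder theorem for units -/

section CRT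

variable {m n : ℕ}

/-- the Chinese remainder theorem for the unit groups -/
def crtU (h : m.Coprime n) : (ZMod m)ˣ × (ZMod n)ˣ ≃* (ZMod (m * n))ˣ :=
  (MulEquiv.prodUnits.symm).trans (Units.mapEquiv (ZMod.chineseRemainder h).symm.toMulEquiv)

theorem chineseRemainder_fst (h : m.Coprime n) (x : ZMod (m * n)) :
    (ZMod.chineseRemainder h x).1 = ZMod.castHom (dvd_mul_right m n) (ZMod m) x := by
  have : (RingHom.fst (ZMod m) (ZMod n)).comp (ZMod.chineseRemainder h : ZMod (m * n) →+* _) =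
      ZMod.castHom (dvd_mul_right m n) (ZMod m) := Subsingleton.elim _ _
  exact congrArg (fun f : ZMod (m * n) →+* ZMod m => f x) this

theorem chineseRemainder_snd (h : m.Coprime n) (x : ZMod (m * n)) :
    (ZMod.chineseRemainder h x).2 = ZMod.castHom (dvd_mul_left n m) (ZMod n) x := by
  have : (RingHom.snd (ZMod m) (ZMod n)).comp (ZMod.chineseRemainder h : ZMod (m * n) →+* _) =
      ZMod.castHom (dvd_mul_left n m) (ZMod n) := Subsingleton.elim _ _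
  exact congrArg (fun f : ZMod (m * n) →+* ZMod n => f x) this

theorem unitsMap_crtU_fst (h : m.Coprime n) (a : (ZMod m)ˣ) (b : (ZMod n)ˣ) :
    ZMod.unitsMap (dvd_mul_right m n) (crtU h (a, b)) = a := by
  apply Units.ext
  show ZMod.castHom (dvd_mul_right m n) (ZMod m)
    ((ZMod.chineseRemainder h).symm ((a : ZMod m), (b : ZMod n))) = a
  rw [← chineseRemainder_fst h, RingEquiv.apply_symm_apply]

theorem unitsMap_crtU_snd (h : m.Coprime n) (a : (ZMod m)ˣ) (b : (ZMod n)ˣ) :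
    ZMod.unitsMap (dvd_mul_left n m) (crtU h (a, b)) = b := by
  apply Units.ext
  show ZMod.castHom (dvd_mul_left n m) (ZMod n)
    ((ZMod.chineseRemainder h).symm ((a : ZMod m), (b : ZMod n))) = b
  rw [← chineseRemainder_snd h, RingEquiv.apply_symm_apply]

end CRT

/-! ### the index type -/

section Index

variable (p M₀ : ℕ) [NeZero M₀]

/-- the index type of the Hecke operators: the primes `ℓ ∤ M₀ p` and the natural numbers prime to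
`M₀` (diamond operators) -/
abbrev Idx : Type := {ℓ : ℕ // ℓ.Prime ∧ ¬ ℓ ∣ M₀ ∧ ℓ ≠ p} ⊕ {n : ℕ // n.Coprime M₀}

/-- the operators at the base level -/
def idx₀ : Idx p M₀ → LvlIdx M₀
  | Sum.inl ℓ => Sum.inl (Sum.inl ⟨ℓ.1, ℓ.2.1, ℓ.2.2.1⟩)
  | Sum.inr n => Sum.inr (ZMod.unitOfCoprime n.1 n.2)

variable {M₀} {Qp : ℕ} [NeZero (M₀ * Qp)]

/-- the `Qp`-component of the diamond operator `⟨n⟩` (trivial if `n` is not prime to `Qp`) -/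
def unitQ (Qp : ℕ) (n : ℕ) : (ZMod Qp)ˣ :=
  if h : n.Coprime Qp then ZMod.unitOfCoprime n h else 1

/-- the operators at the level `M₀ * Qp` -/
def idxQ (hcop : M₀.Coprime Qp) : Idx p M₀ → LvlIdx (M₀ * Qp)
  | Sum.inl ℓ =>
    if h : ℓ.1 ∣ M₀ * Qp then Sum.inl (Sum.inr ⟨ℓ.1, ℓ.2.1, h⟩)
    else Sum.inl (Sum.inl ⟨ℓ.1, ℓ.2.1, h⟩)
  | Sum.inr n => Sum.inr (crtU hcop (ZMod.unitOfCoprime n.1 n.2, unitQ Qp n.1))

theorem idxQ_inl (hcop : M₀.Coprime Qp) (ℓ : {ℓ : ℕ // ℓ.Prime ∧ ¬ ℓ ∣ M₀ ∧ ℓ ≠ p}) :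
    idxQ p hcop (Sum.inl ℓ) =
      if h : ℓ.1 ∣ M₀ * Qp then Sum.inl (Sum.inr ⟨ℓ.1, ℓ.2.1, h⟩)
      else Sum.inl (Sum.inl ⟨ℓ.1, ℓ.2.1, h⟩) := rfl

theorem idxQ_inr (hcop : M₀.Coprime Qp) (n : {n : ℕ // n.Coprime M₀}) :
    idxQ p hcop (Sum.inr n) =
      Sum.inr (crtU hcop (ZMod.unitOfCoprime n.1 n.2, unitQ Qp n.1)) := rfl

theorem idxQ_inl_of_dvd (hcop : M₀.Coprime Qp) (ℓ : {ℓ : ℕ // ℓ.Prime ∧ ¬ ℓ ∣ M₀ ∧ ℓ ≠ p})
    (h : ℓ.1 ∣ M₀ * Qp) : idxQ p hcop (Sum.inl ℓ) = Sum.inl (Sum.inr ⟨ℓ.1, ℓ.2.1, h⟩) := by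
  rw [idxQ_inl, dif_pos h]

theorem idxQ_inl_of_not_dvd (hcop : M₀.Coprime Qp)
    (ℓ : {ℓ : ℕ // ℓ.Prime ∧ ¬ ℓ ∣ M₀ ∧ ℓ ≠ p}) (h : ¬ ℓ.1 ∣ M₀ * Qp) :
    idxQ p hcop (Sum.inl ℓ) = Sum.inl (Sum.inl ⟨ℓ.1, ℓ.2.1, h⟩) := by
  rw [idxQ_inl, dif_neg h]

theorem down_idxQ (hcop : M₀.Coprime Qp) (i : Idx p M₀) :
    LvlIdx.down (dvd_mul_right M₀ Qp) (idxQ p hcop i) = idx₀ p M₀ i := by
  rcases i with ℓ | n
  · by_cases h : ℓ.1 ∣ M₀ * Qp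
    · rw [idxQ_inl_of_dvd p hcop ℓ h]
      show (if hq : ℓ.1 ∣ M₀ then _ else _) = _
      rw [dif_neg ℓ.2.2.1]
      rfl
    · rw [idxQ_inl_of_not_dvd p hcop ℓ h]
      rfl
  · rw [idxQ_inr]
    show Sum.inr (ZMod.unitsMap (dvd_mul_right M₀ Qp) _) = _
    rw [unitsMap_crtU_fst]
    rfl

end Index

/-! ### characters -/

section Char

variable {M₀ Qp : ℕ} {G₀ Δ : Type} [CommGroup G₀] [CommGroup Δ]

/-- the character of level `M₀ * Qp` with values in `G₀ × Δ` -/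
def chiQ (χ₀ : (ZMod M₀)ˣ →* G₀) (κ : (ZMod Qp)ˣ →* Δ) : (ZMod (M₀ * Qp))ˣ →* G₀ × Δ :=
  MonoidHom.prod (χ₀.comp (ZMod.unitsMap (dvd_mul_right M₀ Qp)))
    (κ.comp (ZMod.unitsMap (dvd_mul_left Qp M₀)))

theorem chiQ_apply (χ₀ : (ZMod M₀)ˣ →* G₀) (κ : (ZMod Qp)ˣ →* Δ) (u : (ZMod (M₀ * Qp))ˣ) :
    chiQ χ₀ κ u = (χ₀ (ZMod.unitsMap (dvd_mul_right M₀ Qp) u),
      κ (ZMod.unitsMap (dvd_mul_left Qp M₀) u)) := rfl

theorem chiQ_crtU (hcop : M₀.Coprime Qp) (χ₀ : (ZMod M₀)ˣ →* G₀) (κ : (ZMod Qp)ˣ →* Δ)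
    (a : (ZMod M₀)ˣ) (b : (ZMod Qp)ˣ) : chiQ χ₀ κ (crtU hcop (a, b)) = (χ₀ a, κ b) := by
  rw [chiQ_apply, unitsMap_crtU_fst, unitsMap_crtU_snd]

/-- a homomorphism from `(ℤ/M)ˣ` to a `p`-group, `p` odd, kills `−1` -/
theorem map_neg_one_of_isPGroup {M : ℕ} {G : Type} [Group G] {p : ℕ} (hp : p.Prime) (hp2 : p ≠ 2)
    (hG : IsPGroup p G) (f : (ZMod M)ˣ →* G) : f (-1) = 1 := by
  obtain ⟨k, hk⟩ := hG (f (-1))
  have h2 : f (-1) ^ 2 = 1 := by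
    have : ((-1 : (ZMod M)ˣ)) ^ 2 = 1 := by
      apply Units.ext
      simp
    rw [← map_pow, this, map_one]
  have hcop : Nat.Coprime (p ^ k) 2 :=
    Nat.Coprime.pow_left k ((Nat.coprime_primes hp Nat.prime_two).2 hp2)
  have h1 : orderOf (f (-1)) ∣ 1 := by
    rw [← Nat.Coprime.gcd_eq_one hcop]
    exact Nat.dvd_gcd (orderOf_dvd_of_pow_eq_one hk) (orderOf_dvd_of_pow_eq_one h2)
  exact orderOf_eq_one_iff.1 (Nat.dvd_one.1 h1)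

end Char

/-! ### points -/

section Points

variable (p M₀ : ℕ) [NeZero M₀] {𝒪 : Type} [CommRing 𝒪] [IsLocalRing 𝒪]

/-- the point of the polynomial ring with values `t ℓ` at `T_ℓ` and `1` at the diamonds -/
def evOf (t : ℕ → ResidueField 𝒪) : MvPolynomial (Idx p M₀) 𝒪 →+* ResidueField 𝒪 :=
  eval₂Hom (residue 𝒪) (Sum.elim (fun ℓ => t ℓ.1) (fun _ => 1))

theorem evOf_C (t : ℕ → ResidueField 𝒪) (a : 𝒪) : evOf p M₀ t (C a) = residue 𝒪 a := by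
  unfold evOf
  rw [coe_eval₂Hom, eval₂_C]

theorem evOf_X_inl (t : ℕ → ResidueField 𝒪) (ℓ : {ℓ : ℕ // ℓ.Prime ∧ ¬ ℓ ∣ M₀ ∧ ℓ ≠ p}) :
    evOf p M₀ t (X (Sum.inl ℓ)) = t ℓ.1 := by
  unfold evOf
  rw [coe_eval₂Hom, eval₂_X]
  rfl

theorem evOf_X_inr (t : ℕ → ResidueField 𝒪) (n : {n : ℕ // n.Coprime M₀}) :
    evOf p M₀ t (X (Sum.inr n)) = 1 := by
  unfold evOf
  rw [coe_eval₂Hom, eval₂_X]
  rfl

theorem evOf_surjective (t : ℕ → ResidueField 𝒪) : Function.Surjective (evOf p M₀ (𝒪 := 𝒪) t) := by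
  intro x
  obtain ⟨a, rfl⟩ := residue_surjective x
  exact ⟨C a, evOf_C p M₀ t a⟩

instance ker_evOf_isMaximal (t : ℕ → ResidueField 𝒪) :
    (RingHom.ker (evOf p M₀ (𝒪 := 𝒪) t)).IsMaximal :=
  RingHom.ker_isMaximal_of_surjective _ (evOf_surjective p M₀ t)

/-- the values at level `Q`: `α q` at `U_q` (`q ∈ Q`), `t ℓ` elsewhere -/
def tQ (t α : ℕ → ResidueField 𝒪) (Q : List ℕ) (ℓ : ℕ) : ResidueField 𝒪 :=
  open Classical in if ℓ ∈ Q then α ℓ else t ℓ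

end Points

/-! ### the application of `TWControlStmt` -/

section TW

variable {𝒪 : Type} [CommRing 𝒪] [IsDomain 𝒪] [IsLocalRing 𝒪] [IsNoetherianRing 𝒪]
  [IsAdicComplete (maximalIdeal 𝒪) 𝒪] [Finite (ResidueField 𝒪)]
  [Invertible (2 : 𝒪)] [Invertible (3 : 𝒪)]
  (p : ℕ) [hp : Fact p.Prime] {M₀ : ℕ} [NeZero M₀]
  {G₀ Δ : Type} [CommGroup G₀] [CommGroup Δ] [Fintype G₀] [Fintype Δ]
  (χ₀ : (ZMod M₀)ˣ →* G₀) (Q : List ℕ) [NeZero (M₀ * Q.prod)] (hcop : M₀.Coprime Q.prod)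
  (κ : (ZMod Q.prod)ˣ →* Δ) (t α : ℕ → ResidueField 𝒪)

/-- the Hecke module at level `Q` -/
abbrev ModQ : Type :=
  (levelSys (chiQ χ₀ κ) (idxQ p hcop)).F 𝒪 (Reg (G₀ × Δ) 𝒪) (RingHom.ker (evOf p M₀ (tQ t α Q)))

/-- the Hecke module at the base level -/
abbrev Mod0 : Type :=
  (levelSys χ₀ (idx₀ p M₀)).F 𝒪 (Reg G₀ 𝒪) (RingHom.ker (evOf p M₀ (𝒪 := 𝒪) t))

/-- the index of `U_q` (junk if `q` is not an admissible prime) -/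
def oIdx (M₀ : ℕ) (q : ℕ) : Idx p M₀ :=
  open Classical in
  if h : q.Prime ∧ ¬ q ∣ M₀ ∧ q ≠ p then Sum.inl ⟨q, h⟩ else Sum.inr ⟨1, Nat.coprime_one_left M₀⟩

/-- the index of the diamond `⟨q⟩` (junk if `q` is not prime to `M₀`) -/
def zIdx (M₀ : ℕ) (q : ℕ) : Idx p M₀ :=
  open Classical in
  if h : q.Coprime M₀ then Sum.inr ⟨q, h⟩ else Sum.inr ⟨1, Nat.coprime_one_left M₀⟩

theorem tw_apply (hTW : TWControlStmt) (hp2 : p ≠ 2) {ϖ : 𝒪}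
    (hϖ : maximalIdeal 𝒪 = Ideal.span {ϖ}) (hϖ0 : ϖ ≠ 0) (hp𝒪 : (p : 𝒪) ∈ maximalIdeal 𝒪)
    (hG₀ : IsPGroup p G₀) (hΔ : IsPGroup p Δ) (hQ : Q.Nodup)
    (hQp : ∀ q ∈ Q, q.Prime ∧ ¬ q ∣ M₀ ∧ q ≠ p ∧ ((q : ℕ) : ResidueField 𝒪) = 1)
    (hα1 : ∀ q ∈ Q, α q * t q = α q ^ 2 + 1) (hα2 : ∀ q ∈ Q, α q ^ 2 ≠ 1)
    (hne : ∃ ℓ : {ℓ : ℕ // ℓ.Prime ∧ ¬ ℓ ∣ M₀ ∧ ℓ ≠ p}, ℓ.1 ∉ Q ∧
      t ℓ.1 ≠ ((ℓ.1 + 1 : ℕ) : ResidueField 𝒪)) :
    ∃ (r : ℕ) (b : Fin r → ModQ p χ₀ Q hcop κ t α) (b₀ : Fin r → Mod0 (𝒪 := 𝒪) p χ₀ t)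
      (v : ModQ p χ₀ Q hcop κ t α →+ Mod0 (𝒪 := 𝒪) p χ₀ t),
      (∀ x, ∃! c : Fin r → Reg (G₀ × Δ) 𝒪,
        x = (levelSys (chiQ χ₀ κ) (idxQ p hcop)).combo (RingHom.ker (evOf p M₀ (tQ t α Q))) b c) ∧
      (∀ x, ∃! c : Fin r → Reg G₀ 𝒪,
        x = (levelSys χ₀ (idx₀ p M₀)).combo (RingHom.ker (evOf p M₀ (𝒪 := 𝒪) t)) b₀ c) ∧
      Function.Surjective v ∧
      (∀ y, v y = 0 ↔ y ∈ AddSubgroup.closure
        {x | ∃ δ : G₀ × Δ, δ.1 = 1 ∧ ∃ y', x = (levelSys (chiQ χ₀ κ) (idxQ p hcop)).Gact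
          (RingHom.ker (evOf p M₀ (tQ t α Q))) δ y' - y'}) ∧
      (∀ i : Idx p M₀, (∀ q ∈ Q, i ≠ oIdx p M₀ q) → ∀ y,
        v ((X i : MvPolynomial (Idx p M₀) 𝒪) • y) = (X i : MvPolynomial (Idx p M₀) 𝒪) • v y) ∧
      (∀ (a : 𝒪) y, v (a • y) = a • v y) ∧
      (∀ (g : G₀ × Δ) y, v ((levelSys (chiQ χ₀ κ) (idxQ p hcop)).Gact
          (RingHom.ker (evOf p M₀ (tQ t α Q))) g y) =
        (levelSys χ₀ (idx₀ p M₀)).Gact (RingHom.ker (evOf p M₀ (𝒪 := 𝒪) t)) g.1 (v y)) := by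
  classical
  have hGG : IsPGroup p (G₀ × Δ) := by
    intro g
    obtain ⟨k₁, h₁⟩ := hG₀ g.1
    obtain ⟨k₂, h₂⟩ := hΔ g.2
    refine ⟨k₁ + k₂, Prod.ext ?_ ?_⟩
    · rw [Prod.pow_fst, pow_add, pow_mul, h₁, one_pow]
      rfl
    · rw [Prod.pow_snd, pow_add, mul_comm, pow_mul, h₂, one_pow]
      rfl
  have hoQ : ∀ q (hq : q ∈ Q),
      oIdx p M₀ q = Sum.inl ⟨q, (hQp q hq).1, (hQp q hq).2.1, (hQp q hq).2.2.1⟩ := by
    intro q hq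
    unfold oIdx
    rw [dif_pos ⟨(hQp q hq).1, (hQp q hq).2.1, (hQp q hq).2.2.1⟩]
  have hcopq : ∀ q ∈ Q, q.Coprime M₀ := fun q hq =>
    (Nat.Prime.coprime_iff_not_dvd (hQp q hq).1).2 (hQp q hq).2.1
  have hzQ : ∀ q (hq : q ∈ Q), zIdx p M₀ q = Sum.inr ⟨q, hcopq q hq⟩ := by
    intro q hq
    unfold zIdx
    rw [dif_pos (hcopq q hq)]
  have hdvdM : ∀ q ∈ Q, q ∣ M₀ * Q.prod := fun q hq =>
    (List.dvd_prod hq).trans (dvd_mul_left _ _)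
  refine hTW hϖ hϖ0 hp𝒪 Q hQ (dvd_mul_right M₀ Q.prod) rfl
    (fun q hq => ⟨(hQp q hq).1, (hQp q hq).2.1, (hQp q hq).2.2.2⟩) hGG
    (MonoidHom.fst G₀ Δ) (fun g => ⟨(g, 1), rfl⟩) (chiQ χ₀ κ) χ₀ (fun u => rfl)
    (map_neg_one_of_isPGroup hp.out hp2 hGG _)
    (idxQ p hcop) (idx₀ p M₀) (fun i => (down_idxQ p hcop i).symm) (oIdx p M₀) (zIdx p M₀)
    ?_ ?_ ?_ (evOf p M₀ (tQ t α Q)) (evOf p M₀ t) (evOf_C p M₀ _) (evOf_C p M₀ _) ?_ ?_ ?_ ?_ ?_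
    (RingHom.ker (evOf p M₀ (tQ t α Q))) (RingHom.ker (evOf p M₀ t))
    (fun s => RingHom.mem_ker) (fun s => RingHom.mem_ker)
  · -- `o q` is the index of `U_q`
    intro q hq
    refine ⟨⟨(hQp q hq).1, hdvdM q hq⟩, ?_⟩
    rw [hoQ q hq, idxQ_inl_of_dvd p hcop _ (hdvdM q hq)]
  · -- `U_q` occurs once
    intro q hq i hi
    rw [hoQ q hq, idxQ_inl_of_dvd p hcop _ (hdvdM q hq)] at hi
    rw [hoQ q hq]
    rcases i with ℓ | n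
    · by_cases h : ℓ.1 ∣ M₀ * Q.prod
      · rw [idxQ_inl_of_dvd p hcop ℓ h] at hi
        have h1 : ℓ.1 = q := congrArg Subtype.val (Sum.inr.inj (Sum.inl.inj hi))
        exact congrArg Sum.inl (Subtype.ext h1)
      · rw [idxQ_inl_of_not_dvd p hcop ℓ h] at hi
        exact absurd (Sum.inl.inj hi) (by simp)
    · rw [idxQ_inr] at hi
      exact absurd hi (by simp)
  · -- `z q`
    intro q hq
    refine ⟨_, by rw [hzQ q hq, idxQ_inr], ?_⟩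
    rw [unitsMap_crtU_fst]
    rfl
  · -- the two points agree off the `U_q`
    intro i hi
    rcases i with ℓ | n
    · rw [evOf_X_inl, evOf_X_inl]
      unfold tQ
      by_cases hℓ : ℓ.1 ∈ Q
      · exact absurd (hoQ ℓ.1 hℓ).symm (hi ℓ.1 hℓ)
      · rw [if_neg hℓ]
    · rw [evOf_X_inr, evOf_X_inr]
  · -- the diamonds
    intro q hq
    rw [hzQ q hq, evOf_X_inr]
  · -- `α a = α² + 1`
    intro q hq
    rw [hoQ q hq, evOf_X_inl, evOf_X_inl]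
    unfold tQ
    rw [if_pos hq]
    exact hα1 q hq
  · intro q hq
    rw [hoQ q hq, evOf_X_inl]
    unfold tQ
    rw [if_pos hq]
    exact hα2 q hq
  · -- non-Eisenstein
    obtain ⟨ℓ, hℓQ, hℓ⟩ := hne
    have hℓM : ¬ ℓ.1 ∣ M₀ * Q.prod := by
      intro hd
      rcases (Nat.Prime.dvd_mul ℓ.2.1).1 hd with h | h
      · exact ℓ.2.2.1 h
      · obtain ⟨q, hq, hℓq⟩ := (Prime.dvd_prod_iff (Nat.Prime.prime ℓ.2.1)).1 h
        have : ℓ.1 = q := (Nat.prime_dvd_prime_iff_eq ℓ.2.1 (hQp q hq).1).1 hℓq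
        exact hℓQ (this ▸ hq)
    refine ⟨Sum.inl ℓ, fun q hq h => ?_, ?_⟩
    · rw [hoQ q hq] at h
      have : ℓ.1 = q := congrArg Subtype.val (Sum.inl.inj h)
      exact hℓQ (this ▸ hq)
    · rw [evOf_X_inl]
      unfold tQ
      rw [if_neg hℓQ, idxQ_inl_of_not_dvd p hcop ℓ hℓM]
      have hcard : Fintype.card (lvlIota (M₀ * Q.prod)
          (Sum.inl (Sum.inl ⟨ℓ.1, ℓ.2.1, hℓM⟩))) = ℓ.1 + 1 := by
        haveI : NeZero ℓ.1 := ⟨ℓ.2.1.ne_zero⟩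
        rw [Fintype.card_eq_nat_card]
        show Nat.card (OnePoint (ZMod ℓ.1)) = ℓ.1 + 1
        rw [show OnePoint (ZMod ℓ.1) = Option (ZMod ℓ.1) from rfl, Finite.card_option,
          Nat.card_zmod]
      rw [hcard]
      exact hℓ

end TW

end Fermat.Agent.S43lib.Mod4.HO
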