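-- Project H (S43), LAYER 4, hub part 2: the abstract Hecke data (helper1's `AbsHecke`) of the concrete
-- Hecke modules `ModQ`, `Mod0`, the Hecke algebras `BQ`, `T0`, and the Hecke-side fields of
-- `SideLevel` (`RΔ`, `ι`, freeness, `e₀`, `v`, `ker_v`) out of helper3's `TWControlStmt`.
import Mathlib
import Fermat.Agent.S43lib.Mod4.HeckeObj
import Fermat.Agent.S43lib.Mod4.HeckeCtrl
import Fermat.Agent.S43lib.B1x.HeckeAlgB1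
import Fermat.Agent.S43lib.B3.DiamGact

set_option autoImplicit false
set_option linter.unusedSectionVars false
set_option linter.style.haveILetI false

noncomputable section

namespace Fermat.Agent.S43lib.Mod4.HO

open IsLocalRing MvPolynomial Fermat.Agent.S43lib.B1 Fermat.Agent.S43lib.Loc

/-- the diamond action as a homomorphism of monoids -/
def gactHom {Γ G I : Type} [Group Γ] [CommGroup G] (S : HeckeSys Γ G I) {R : Type} [CommRing R]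
    (W : Type) [AddCommGroup W] [Module R W] [DistribMulAction G W] [SMulCommClass G R W]
    (𝔪 : Ideal (MvPolynomial I R)) [𝔪.IsPrime] :
    G →* (S.F R W 𝔪 →ₗ[MvPolynomial I R] S.F R W 𝔪) where
  toFun := S.Gact 𝔪
  map_one' := LinearMap.ext (S.Gact_one 𝔪)
  map_mul' g h := LinearMap.ext (S.Gact_mul 𝔪 g h)

/-! ### the abstract Hecke datum of a level system -/

section Lvl

variable {𝒪 : Type} [CommRing 𝒪] [IsLocalRing 𝒪] {M : ℕ} [NeZero M] {G : Type} [CommGroup G]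
  (χ : (ZMod M)ˣ →* G) {I : Type} (f : I → LvlIdx M)
  (ev : MvPolynomial I 𝒪 →+* ResidueField 𝒪) (hev : ∀ a, ev (C a) = residue 𝒪 a)
  [(RingHom.ker ev).IsMaximal]

/-- **the abstract Hecke datum of the level system `levelSys χ f` localised at the point `ev`**, with
coefficients in the regular representation of `G` -/
def absLvl : AbsHecke 𝒪 G I where
  Mod := (levelSys χ f).F 𝒪 (Reg G 𝒪) (RingHom.ker ev)
  act := gactHom (levelSys χ f) (Reg G 𝒪) (RingHom.ker ev)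
  ev := ev
  ev_C := hev
  bij := fun s hs => HeckeSys.bijective_smul_F _ _ _ fun h => hs (RingHom.mem_ker.1 h)

theorem absLvl_act (g : G) (y : (levelSys χ f).F 𝒪 (Reg G 𝒪) (RingHom.ker ev)) :
    (absLvl χ f ev hev).act g y = (levelSys χ f).Gact (RingHom.ker ev) g y := rfl

/-- **DIAMOND = GACT in the Hecke algebra**: the operator of a diamond index is the group element -/
theorem absLvl_tX_eq_tG (J' : Set I) (i : I) (hi : i ∈ J') (u : (ZMod M)ˣ) (hfi : f i = Sum.inr u) :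
    (absLvl χ f ev hev).tX J' i hi = (absLvl χ f ev hev).tG J' (χ u) := by
  apply (absLvl χ f ev hev).hecke_ext J'
  intro y
  rw [AbsHecke.tX_smul, AbsHecke.tG_smul]
  exact Fermat.Agent.S43lib.B3.X_smul_eq_Gact χ (Reg G 𝒪) f i u hfi (RingHom.ker ev) y

end Lvl

section Inst

variable {𝒪 : Type} [CommRing 𝒪] [IsLocalRing 𝒪]
  (p : ℕ) {M₀ : ℕ} [NeZero M₀]
  {G₀ Δ : Type} [CommGroup G₀] [CommGroup Δ]
  (χ₀ : (ZMod M₀)ˣ →* G₀) (Q : List ℕ) [NeZero (M₀ * Q.prod)] (hcop : M₀.Coprime Q.prod)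
  (κ : (ZMod Q.prod)ˣ →* Δ) (t α : ℕ → ResidueField 𝒪)

/-- the abstract Hecke datum at level `Q` -/
abbrev absQ : AbsHecke 𝒪 (G₀ × Δ) (Idx p M₀) :=
  absLvl (chiQ χ₀ κ) (idxQ p hcop) (evOf p M₀ (tQ t α Q)) (evOf_C p M₀ _)

/-- the abstract Hecke datum at the base level -/
abbrev abs0 : AbsHecke 𝒪 G₀ (Idx p M₀) :=
  absLvl χ₀ (idx₀ p M₀) (evOf p M₀ (𝒪 := 𝒪) t) (evOf_C p M₀ _)

/-- the indices of the Hecke operators of `𝕋_Q`: all but the `U_q`, `q ∈ Q` -/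
def JQ (M₀ : ℕ) [NeZero M₀] (Q : List ℕ) : Set (Idx p M₀) := {i | ∀ q ∈ Q, i ≠ oIdx p M₀ q}

/-- **the Hecke algebra `𝕋_Q`** -/
abbrev BQ : Type := (absQ p χ₀ Q hcop κ t α).hecke (JQ p M₀ Q)

/-- **the Hecke algebra `𝕋_∅`** -/
abbrev T0 : Type := (abs0 (𝒪 := 𝒪) p χ₀ t).hecke Set.univ

instance instModuleBQ : Module (BQ p χ₀ Q hcop κ t α) (ModQ p χ₀ Q hcop κ t α) :=
  AbsHecke.instModuleHecke (absQ p χ₀ Q hcop κ t α) (JQ p M₀ Q)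

instance instModuleT0 : Module (T0 (𝒪 := 𝒪) p χ₀ t) (Mod0 (𝒪 := 𝒪) p χ₀ t) :=
  AbsHecke.instModuleHecke (abs0 p χ₀ t) Set.univ

instance instIsScalarTowerBQ :
    IsScalarTower 𝒪 (BQ p χ₀ Q hcop κ t α) (ModQ p χ₀ Q hcop κ t α) :=
  AbsHecke.instIsScalarTowerHecke (absQ p χ₀ Q hcop κ t α) (JQ p M₀ Q)

instance instIsScalarTowerT0 :
    IsScalarTower 𝒪 (T0 (𝒪 := 𝒪) p χ₀ t) (Mod0 (𝒪 := 𝒪) p χ₀ t) :=
  AbsHecke.instIsScalarTowerHecke (abs0 p χ₀ t) Set.univ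

theorem absQ_act (g : G₀ × Δ) (y : ModQ p χ₀ Q hcop κ t α) :
    (absQ p χ₀ Q hcop κ t α).act g y =
      (levelSys (chiQ χ₀ κ) (idxQ p hcop)).Gact (RingHom.ker (evOf p M₀ (tQ t α Q))) g y := rfl

theorem abs0_act (g : G₀) (y : Mod0 (𝒪 := 𝒪) p χ₀ t) :
    (abs0 p χ₀ t).act g y =
      (levelSys χ₀ (idx₀ p M₀)).Gact (RingHom.ker (evOf p M₀ (𝒪 := 𝒪) t)) g y := rfl

end Inst

/-- from a basis over `Reg G 𝒪` (helper3's vocabulary) to coordinates `G → 𝒪` -/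
theorem existsUnique_fun_of_reg {Γ G I : Type} [Group Γ] [CommGroup G] [Fintype G]
    (S : HeckeSys Γ G I) {𝒪 : Type} [CommRing 𝒪] [IsDomain 𝒪] [IsLocalRing 𝒪] [IsNoetherianRing 𝒪]
    [IsAdicComplete (maximalIdeal 𝒪) 𝒪] (𝔪 : Ideal (MvPolynomial I 𝒪)) [𝔪.IsMaximal] {r : ℕ}
    (b : Fin r → S.F 𝒪 (Reg G 𝒪) 𝔪)
    (h : ∀ x, ∃! c : Fin r → Reg G 𝒪, x = S.combo 𝔪 b c) (x : S.F 𝒪 (Reg G 𝒪) 𝔪) :
    ∃! c : Fin r → (G → 𝒪), x = ∑ i, ∑ g, c i g • S.Gact 𝔪 g (b i) := by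
  have key : ∀ c : Fin r → Reg G 𝒪,
      S.combo 𝔪 b c = ∑ i, ∑ g, (fun i => (c i : G → 𝒪)) i g • S.Gact 𝔪 g (b i) := fun c => rfl
  obtain ⟨c, hc, huniq⟩ := h x
  refine ⟨fun i => (c i : G → 𝒪), by rw [hc]; exact key c, fun c' hc' => ?_⟩
  have h1 : (fun i => (Reg.mk (c' i) : Reg G 𝒪)) = c := by
    apply huniq
    beta_reduce
    rw [hc']
    exact (key fun i => (Reg.mk (c' i) : Reg G 𝒪)).symm
  funext i
  rw [← h1]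

section TW

variable {𝒪 : Type} [CommRing 𝒪] [IsDomain 𝒪] [IsLocalRing 𝒪] [IsNoetherianRing 𝒪]
  [IsAdicComplete (maximalIdeal 𝒪) 𝒪] [Finite (ResidueField 𝒪)]
  [Invertible (2 : 𝒪)] [Invertible (3 : 𝒪)]
  (p : ℕ) [hp : Fact p.Prime] {M₀ : ℕ} [NeZero M₀]
  {G₀ Δ : Type} [CommGroup G₀] [CommGroup Δ] [Fintype G₀] [Fintype Δ]
  (χ₀ : (ZMod M₀)ˣ →* G₀) (Q : List ℕ) [NeZero (M₀ * Q.prod)] (hcop : M₀.Coprime Q.prod)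
  (κ : (ZMod Q.prod)ˣ →* Δ) (t α : ℕ → ResidueField 𝒪)

/-- the output of `TWControlStmt` for the concrete Hecke modules, as data -/
structure TWData : Type where
  r : ℕ
  b : Fin r → ModQ p χ₀ Q hcop κ t α
  b₀ : Fin r → Mod0 (𝒪 := 𝒪) p χ₀ t
  v : ModQ p χ₀ Q hcop κ t α →+ Mod0 (𝒪 := 𝒪) p χ₀ t
  hb : ∀ x, ∃! c : Fin r → Reg (G₀ × Δ) 𝒪,
    x = (levelSys (chiQ χ₀ κ) (idxQ p hcop)).combo (RingHom.ker (evOf p M₀ (tQ t α Q))) b c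
  hb₀ : ∀ x, ∃! c : Fin r → Reg G₀ 𝒪,
    x = (levelSys χ₀ (idx₀ p M₀)).combo (RingHom.ker (evOf p M₀ (𝒪 := 𝒪) t)) b₀ c
  surj : Function.Surjective v
  ker : ∀ y, v y = 0 ↔ y ∈ AddSubgroup.closure
    {x | ∃ δ : G₀ × Δ, δ.1 = 1 ∧ ∃ y', x = (absQ p χ₀ Q hcop κ t α).act δ y' - y'}
  vX : ∀ i ∈ JQ p M₀ Q, ∀ y : ModQ p χ₀ Q hcop κ t α,
    v ((X i : MvPolynomial (Idx p M₀) 𝒪) • y) = (X i : MvPolynomial (Idx p M₀) 𝒪) • v y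
  v𝒪 : ∀ (a : 𝒪) (y : ModQ p χ₀ Q hcop κ t α), v (a • y) = a • v y
  vG : ∀ (g : G₀ × Δ) (y : ModQ p χ₀ Q hcop κ t α),
    v ((absQ p χ₀ Q hcop κ t α).act g y) = (abs0 (𝒪 := 𝒪) p χ₀ t).act g.1 (v y)

/-- **`TWControlStmt` for the concrete Hecke modules, as data** -/
theorem nonempty_twData (hTW : TWControlStmt) (hp2 : p ≠ 2) {ϖ : 𝒪}
    (hϖ : maximalIdeal 𝒪 = Ideal.span {ϖ}) (hϖ0 : ϖ ≠ 0) (hp𝒪 : (p : 𝒪) ∈ maximalIdeal 𝒪)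
    (hG₀ : IsPGroup p G₀) (hΔ : IsPGroup p Δ) (hQ : Q.Nodup)
    (hQp : ∀ q ∈ Q, q.Prime ∧ ¬ q ∣ M₀ ∧ q ≠ p ∧ ((q : ℕ) : ResidueField 𝒪) = 1)
    (hα1 : ∀ q ∈ Q, α q * t q = α q ^ 2 + 1) (hα2 : ∀ q ∈ Q, α q ^ 2 ≠ 1)
    (hne : ∃ ℓ : {ℓ : ℕ // ℓ.Prime ∧ ¬ ℓ ∣ M₀ ∧ ℓ ≠ p}, ℓ.1 ∉ Q ∧
      t ℓ.1 ≠ ((ℓ.1 + 1 : ℕ) : ResidueField 𝒪)) :
    Nonempty (TWData p χ₀ Q hcop κ t α) := by
  obtain ⟨r, b, b₀, v, h1, h2, h3, h4, h5, h6, h7⟩ :=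
    tw_apply p χ₀ Q hcop κ t α hTW hp2 hϖ hϖ0 hp𝒪 hG₀ hΔ hQ hQp hα1 hα2 hne
  exact ⟨{
    r := r
    b := b
    b₀ := b₀
    v := v
    hb := h1
    hb₀ := h2
    surj := h3
    ker := h4
    vX := fun i hi y => h5 i hi y
    v𝒪 := h6
    vG := h7 }⟩

namespace TWData

variable {p χ₀ Q hcop κ t α} (D : TWData p χ₀ Q hcop κ t α)

include D

theorem free (x : ModQ p χ₀ Q hcop κ t α) : ∃! c : Fin D.r → (G₀ × Δ → 𝒪),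
    x = ∑ i, ∑ g, c i g • (absQ p χ₀ Q hcop κ t α).act g (D.b i) :=
  existsUnique_fun_of_reg _ _ D.b D.hb x

theorem free₀ (x : Mod0 (𝒪 := 𝒪) p χ₀ t) : ∃! c : Fin D.r → (G₀ → 𝒪),
    x = ∑ i, ∑ g, c i g • (abs0 (𝒪 := 𝒪) p χ₀ t).act g (D.b₀ i) :=
  existsUnique_fun_of_reg _ _ D.b₀ D.hb₀ x

theorem finite_modQ : Module.Finite 𝒪 (ModQ p χ₀ Q hcop κ t α) :=
  HeckeSys.finite_of_combo _ _ D.b D.hb

theorem finite_mod0 : Module.Finite 𝒪 (Mod0 (𝒪 := 𝒪) p χ₀ t) :=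
  HeckeSys.finite_of_combo _ _ D.b₀ D.hb₀

theorem free_modQ : Module.Free 𝒪 (ModQ p χ₀ Q hcop κ t α) :=
  HeckeSys.free_of_combo _ _ D.b D.hb

theorem free_mod0 : Module.Free 𝒪 (Mod0 (𝒪 := 𝒪) p χ₀ t) :=
  HeckeSys.free_of_combo _ _ D.b₀ D.hb₀

theorem finrank_mod0 :
    Module.finrank 𝒪 (Mod0 (𝒪 := 𝒪) p χ₀ t) = D.r * Fintype.card G₀ :=
  HeckeSys.finrank_of_combo _ _ D.b₀ D.hb₀

/-- the rank is determined by the base level -/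
theorem r_eq : D.r = Module.finrank 𝒪 (Mod0 (𝒪 := 𝒪) p χ₀ t) / Fintype.card G₀ := by
  rw [D.finrank_mod0, Nat.mul_div_cancel _ Fintype.card_pos]

theorem r_pos [Nontrivial (Mod0 (𝒪 := 𝒪) p χ₀ t)] : 0 < D.r := by
  haveI := D.finite_mod0
  haveI := D.free_mod0
  have h : 0 < Module.finrank 𝒪 (Mod0 (𝒪 := 𝒪) p χ₀ t) := Module.finrank_pos
  rw [D.finrank_mod0] at h
  exact Nat.pos_of_mul_pos_right h

theorem nontrivial_modQ [Nontrivial (Mod0 (𝒪 := 𝒪) p χ₀ t)] :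
    Nontrivial (ModQ p χ₀ Q hcop κ t α) :=
  HeckeSys.nontrivial_of_combo _ _ D.b D.hb D.r_pos

omit D in
theorem isPGroup_prod (hG₀ : IsPGroup p G₀) (hΔ : IsPGroup p Δ) : IsPGroup p (G₀ × Δ) := by
  intro g
  obtain ⟨k₁, h₁⟩ := hG₀ g.1
  obtain ⟨k₂, h₂⟩ := hΔ g.2
  refine ⟨k₁ + k₂, Prod.ext ?_ ?_⟩
  · rw [Prod.pow_fst, pow_add, pow_mul, h₁, one_pow]
    rfl
  · rw [Prod.pow_snd, pow_add, mul_comm, pow_mul, h₂, one_pow]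
    rfl

theorem goodQ [Nontrivial (Mod0 (𝒪 := 𝒪) p χ₀ t)] (hp𝒪 : (p : 𝒪) ∈ maximalIdeal 𝒪)
    (hG₀ : IsPGroup p G₀) (hΔ : IsPGroup p Δ) : (absQ p χ₀ Q hcop κ t α).Good p where
  hp := hp.out
  hp𝒪 := hp𝒪
  hG := isPGroup_prod hG₀ hΔ
  fin := D.finite_modQ
  nontriv := D.nontrivial_modQ

theorem good0 [Nontrivial (Mod0 (𝒪 := 𝒪) p χ₀ t)] (hp𝒪 : (p : 𝒪) ∈ maximalIdeal 𝒪)
    (hG₀ : IsPGroup p G₀) : (abs0 (𝒪 := 𝒪) p χ₀ t).Good p where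
  hp := hp.out
  hp𝒪 := hp𝒪
  hG := hG₀
  fin := D.finite_mod0
  nontriv := (inferInstance : Nontrivial (Mod0 (𝒪 := 𝒪) p χ₀ t))

end TWData

end TW

/-! ### the Hecke-side fields of `SideLevel` -/

section Level

variable {𝒪 : Type} [CommRing 𝒪] [IsDomain 𝒪] [IsLocalRing 𝒪] [IsNoetherianRing 𝒪]
  [IsAdicComplete (maximalIdeal 𝒪) 𝒪] [Finite (ResidueField 𝒪)]
  [Invertible (2 : 𝒪)] [Invertible (3 : 𝒪)]
  {p : ℕ} [hp : Fact p.Prime] {M₀ : ℕ} [NeZero M₀]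
  {G₀ : Type} [CommGroup G₀] [Fintype G₀] {m : ℕ} {a : Fin m → ℕ}
  {χ₀ : (ZMod M₀)ˣ →* G₀} {Q : List ℕ} [NeZero (M₀ * Q.prod)] {hcop : M₀.Coprime Q.prod}
  {κ : (ZMod Q.prod)ˣ →* DeltaGrp p a} {t α : ℕ → ResidueField 𝒪}
  (D : TWData p χ₀ Q hcop κ t α)

attribute [local instance] lamAlgebraQ lamAlgebra0

namespace TWData

/-- **`e₀ : 𝕋_Q → 𝕋_∅`** -/
def e₀ : BQ p χ₀ Q hcop κ t α →ₐ[MonoidAlgebra 𝒪 G₀] T0 (𝒪 := 𝒪) p χ₀ t :=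
  Mod4.e₀ (absQ p χ₀ Q hcop κ t α) (abs0 p χ₀ t) (Set.subset_univ (JQ p M₀ Q)) D.v D.v𝒪 D.vX D.vG
    D.surj

theorem e₀_tX (i : Idx p M₀) (hi : i ∈ JQ p M₀ Q) :
    D.e₀ ((absQ p χ₀ Q hcop κ t α).tX (JQ p M₀ Q) i hi) =
      (abs0 (𝒪 := 𝒪) p χ₀ t).tX Set.univ i (Set.mem_univ i) :=
  Mod4.e₀_tX _ _ _ _ _ _ _ _ i hi

theorem e₀_tG (g : G₀ × DeltaGrp p a) :
    D.e₀ ((absQ p χ₀ Q hcop κ t α).tG (JQ p M₀ Q) g) =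
      (abs0 (𝒪 := 𝒪) p χ₀ t).tG Set.univ g.1 :=
  Mod4.e₀_tG _ _ _ _ _ _ _ _ g

theorem v_smul (s : BQ p χ₀ Q hcop κ t α) (x : ModQ p χ₀ Q hcop κ t α) :
    D.v (s • x) = D.e₀ s • D.v x :=
  Mod4.v_smul (absQ p χ₀ Q hcop κ t α) (abs0 p χ₀ t) (Set.subset_univ (JQ p M₀ Q)) D.v D.v𝒪 D.vX
    D.vG D.surj s x

theorem ker_v (x : ModQ p χ₀ Q hcop κ t α) :
    D.v x = 0 ↔ x ∈ (Ideal.span (Set.range fun i : Fin m =>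
      iotaHom (absQ p χ₀ Q hcop κ t α) (JQ p M₀ Q)
        ((deltaUnit p a (MonoidAlgebra 𝒪 G₀) i :
          (MonoidAlgebra (MonoidAlgebra 𝒪 G₀) (DeltaGrp p a))ˣ) :
            MonoidAlgebra (MonoidAlgebra 𝒪 G₀) (DeltaGrp p a)) - 1)) •
        (⊤ : Submodule (BQ p χ₀ Q hcop κ t α) (ModQ p χ₀ Q hcop κ t α)) :=
  ker_v_iff p a (absQ p χ₀ Q hcop κ t α) (abs0 p χ₀ t) (Set.subset_univ (JQ p M₀ Q)) D.v D.v𝒪 D.vX
    D.vG D.surj D.ker x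

theorem free_iota (x : ModQ p χ₀ Q hcop κ t α) :
    ∃! c : Fin D.r → MonoidAlgebra (MonoidAlgebra 𝒪 G₀) (DeltaGrp p a),
      x = ∑ i, iotaHom (absQ p χ₀ Q hcop κ t α) (JQ p M₀ Q) (c i) • D.b i :=
  free_of_reg (absQ p χ₀ Q hcop κ t α) (JQ p M₀ Q) D.b D.free x

end TWData

end Level

end Fermat.Agent.S43lib.Mod4.HO
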