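-- Project H (S43), LAYER 4: traces of two adic representations pushed to a common local ring agree
-- everywhere as soon as they agree (with the determinants) at almost all Frobenius elements.
import Mathlib
import Fermat.Agent.S58lib.Cmp.Charpoly
import Fermat.Agent.TeamA.MatRep

set_option autoImplicit false
set_option linter.unusedSectionVars false
set_option linter.style.haveILetI false

noncomputable section

namespace Fermat.Agent.S43lib.Mod4

open IsLocalRing Polynomial Fermat.Agent.TeamA.Rep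

/-- `G_ℚ` -/
local notation "GQ" => (AlgebraicClosure ℚ ≃ₐ[ℚ] AlgebraicClosure ℚ)

variable {A B : Type} [CommRing A] [IsLocalRing A] [CommRing B] [IsLocalRing B]

theorem trace_baseChangeAlong (φ : A →+* B) (hφ : IsLocalHom φ) (ρ : GaloisRepAdic A) (g : GQ) :
    (ρ.baseChangeAlong φ hφ).trace g = φ (ρ.trace g) := by
  obtain ⟨b⟩ : Nonempty (Module.Basis (Fin 2) A ρ.V) :=
    ⟨Module.finBasisOfFinrankEq _ _ ρ.finrank_eq⟩
  have h1 : (ρ.baseChangeAlong φ hφ).trace g =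
      (matOf (ρ.baseChangeAlong φ hφ) (bcBasis φ hφ ρ b) g).trace :=
    LinearMap.trace_eq_matrix_trace B (bcBasis φ hφ ρ b) _
  have h2 : ρ.trace g = (matOf ρ b g).trace := LinearMap.trace_eq_matrix_trace A b _
  rw [h1, h2, matOf_baseChangeAlong, Matrix.trace_fin_two, Matrix.trace_fin_two, map_add]
  rfl

theorem det_baseChangeAlong (φ : A →+* B) (hφ : IsLocalHom φ) (ρ : GaloisRepAdic A) (g : GQ) :
    LinearMap.det ((ρ.baseChangeAlong φ hφ).ρ g) = φ (LinearMap.det (ρ.ρ g)) := by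
  obtain ⟨b⟩ : Nonempty (Module.Basis (Fin 2) A ρ.V) :=
    ⟨Module.finBasisOfFinrankEq _ _ ρ.finrank_eq⟩
  have h1 : LinearMap.det ((ρ.baseChangeAlong φ hφ).ρ g) =
      (matOf (ρ.baseChangeAlong φ hφ) (bcBasis φ hφ ρ b) g).det :=
    (LinearMap.det_toMatrix (bcBasis φ hφ ρ b) _).symm
  have h2 : LinearMap.det (ρ.ρ g) = (matOf ρ b g).det := (LinearMap.det_toMatrix b _).symm
  rw [h1, h2, matOf_baseChangeAlong]
  exact (RingHom.map_det φ _).symm

variable {A₁ A₂ : Type} [CommRing A₁] [IsLocalRing A₁] [CommRing A₂] [IsLocalRing A₂]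

/-- **Chebotarev for traces.** -/
theorem trace_compat [IsHausdorff (maximalIdeal B) B] (a : A₁ →+* B) (ha : IsLocalHom a)
    (b : A₂ →+* B) (hb : IsLocalHom b) (ρ₁ : GaloisRepAdic A₁) (ρ₂ : GaloisRepAdic A₂)
    (S₀ : Finset ℕ)
    (h : ∀ ℓ : ℕ, ℓ.Prime → ℓ ∉ S₀ → ∀ P : ValuationSubring (AlgebraicClosure ℚ),
      P.LiesOverPrime ℓ → ∀ φ : GQ, P.IsFrobeniusAt φ ℓ →
        a (ρ₁.trace φ) = b (ρ₂.trace φ) ∧
          a (LinearMap.det (ρ₁.ρ φ)) = b (LinearMap.det (ρ₂.ρ φ))) (σ : GQ) :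
    a (ρ₁.trace σ) = b (ρ₂.trace σ) := by
  have key := (Fermat.Agent.S58lib.Cmp.trace_det_map_eq_of_frobenius (RingHom.id B)
    (fun x hx => hx) (ρ₂.baseChangeAlong b hb) (ρ₁.baseChangeAlong a ha) S₀ ?_ σ).1
  · have e1 := trace_baseChangeAlong a ha ρ₁ σ
    have e2 := trace_baseChangeAlong b hb ρ₂ σ
    unfold GaloisRepAdic.trace at e1 e2
    rw [e1, e2, RingHom.id_apply] at key
    exact key
  · intro ℓ hℓ hℓS P hP φ hφ
    obtain ⟨ht, hd⟩ := h ℓ hℓ hℓS P hP φ hφ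
    rw [Polynomial.map_id,
      Fermat.Agent.S34lib.charpoly_eq_of_finrank_two (ρ₁.baseChangeAlong a ha).finrank_eq,
      Fermat.Agent.S34lib.charpoly_eq_of_finrank_two (ρ₂.baseChangeAlong b hb).finrank_eq]
    have e1 := trace_baseChangeAlong a ha ρ₁ φ
    have e2 := trace_baseChangeAlong b hb ρ₂ φ
    unfold GaloisRepAdic.trace at e1 e2
    unfold GaloisRepAdic.trace at ht
    rw [e1, e2, det_baseChangeAlong, det_baseChangeAlong, ht, hd]

end Fermat.Agent.S43lib.Mod4
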