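-- Project H (S43), LAYER 4, the hub: the CONCRETE data of the Hecke side for the Frey curve at the
-- level `N` (on top of helper4's `SideGal`): the base level `M₀ = 2 ∏_{v ∈ T} v`, the diamond group
-- `G₀ = ∏_{v ∈ T} ℤ/p`, the character `χ₀`, the point `t ℓ = tr ρ̄(Frob_ℓ)`, and at a Taylor–Wiles set
-- `qv` of depth `n`: `Q`, `Δ = ∏_i ℤ/p^{n+1}`, `κ`, `α`.
import Mathlib
import Fermat.Agent.S43lib.Mod4.HeckeInst
import Fermat.Agent.S43lib.B3.SideGal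
import Fermat.Agent.S43lib.B3.CycGen
import Fermat.Agent.S43lib.Loc.GroupRingDelta

set_option autoImplicit false
set_option linter.unusedSectionVars false
set_option linter.style.haveILetI false

noncomputable section

namespace Fermat.Agent.S43lib.Mod4.Hub

open IsLocalRing Polynomial Fermat.Agent.S43lib.B3 Fermat.Agent.S43lib.Loc
  Fermat.Agent.S56lib.Main Fermat.Agent.S43lib.Mod4.HO

/-- `G_ℚ` -/
local notation "GQ" => (AlgebraicClosure ℚ ≃ₐ[ℚ] AlgebraicClosure ℚ)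

/-! ### the characters `κ_v` -/

/-- the surjection `κ_v : (ℤ/v)ˣ → ℤ/p^a` with `κ_v(cyc_v(Σ_v)) = 2` (trivial if it does not exist) -/
def kap (p a v : ℕ) : (ZMod v)ˣ →* Multiplicative (ZMod (p ^ a)) :=
  open Classical in
  if h : v.Prime ∧ p.Prime ∧ p ≠ 2 ∧ p ≠ v ∧ p ^ a ∣ v - 1 then
    Classical.choose (exists_kappa ⟨v, h.1⟩ h.2.1 h.2.2.1 h.2.2.2.1 a h.2.2.2.2)
  else 1

theorem kap_spec {p a v : ℕ} (hv : v.Prime) (hp : p.Prime) (hp2 : p ≠ 2) (hpv : p ≠ v)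
    (ha : p ^ a ∣ v - 1) :
    Function.Surjective (kap p a v) ∧
      kap p a v (cycGen ⟨v, hv⟩ p) = Multiplicative.ofAdd 2 := by
  have h : v.Prime ∧ p.Prime ∧ p ≠ 2 ∧ p ≠ v ∧ p ^ a ∣ v - 1 := ⟨hv, hp, hp2, hpv, ha⟩
  unfold kap
  rw [dif_pos h]
  exact Classical.choose_spec (exists_kappa ⟨v, h.1⟩ h.2.1 h.2.2.1 h.2.2.2.1 a h.2.2.2.2)

/-! ### the base level -/

/-- the index set of the primes of `T` -/
abbrev TT (N : ℕ) : Type := ↥(primesIn (oddPrimes N))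

/-- the base level `M₀ = 2 ∏_{v ∈ T} v` -/
def M₀ (N : ℕ) : ℕ := 2 * ∏ v ∈ oddPrimes N, v

theorem M₀_ne_zero (N : ℕ) : M₀ N ≠ 0 :=
  mul_ne_zero two_ne_zero (Finset.prod_ne_zero_iff.2 fun _ hv => (prime_of_mem_oddPrimes hv).ne_zero)

instance M₀_neZero (N : ℕ) : NeZero (M₀ N) := ⟨M₀_ne_zero N⟩

theorem TT_prime {N : ℕ} (v : TT N) : ((v : Nat.Primes) : ℕ).Prime := (v : Nat.Primes).2

theorem TT_mem {N : ℕ} (v : TT N) : ((v : Nat.Primes) : ℕ) ∈ oddPrimes N := mem_primesIn.1 v.2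

theorem TT_dvd_M₀ {N : ℕ} (v : TT N) : ((v : Nat.Primes) : ℕ) ∣ M₀ N :=
  Dvd.dvd.mul_left (Finset.dvd_prod_of_mem (fun v => v) (TT_mem v)) 2

/-- the number of primes of `T` -/
def mT (N : ℕ) : ℕ := Fintype.card (TT N)

/-- an enumeration of `T` -/
def eT (N : ℕ) : TT N ≃ Fin (mT N) := Fintype.equivFin (TT N)

/-- the exponents of `G₀` -/
abbrev aT (N : ℕ) : Fin (mT N) → ℕ := fun _ => 1

variable (P : FreyPackage) (N : ℕ)

/-- **the diamond group of the base level** `G₀ = ∏_{v ∈ T} ℤ/p` -/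
abbrev G₀ : Type := DeltaGrp P.p (aT N)

/-- **the character of the base level** -/
def χ₀ : (ZMod (M₀ N))ˣ →* G₀ P N :=
  MonoidHom.pi fun i : Fin (mT N) =>
    (kap P.p 1 (((eT N).symm i : Nat.Primes) : ℕ)).comp (ZMod.unitsMap (TT_dvd_M₀ ((eT N).symm i)))

theorem χ₀_apply (u : (ZMod (M₀ N))ˣ) (i : Fin (mT N)) :
    χ₀ P N u i = kap P.p 1 (((eT N).symm i : Nat.Primes) : ℕ)
      (ZMod.unitsMap (TT_dvd_M₀ ((eT N).symm i)) u) := rfl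

/-- the group ring `Λ = 𝒪[G₀]` -/
abbrev Lam (𝒪 : Type) [CommRing 𝒪] : Type := MonoidAlgebra 𝒪 (G₀ P N)

/-- the units `g_v ∈ Λˣ` -/
def gT (𝒪 : Type) [CommRing 𝒪] (v : TT N) : (Lam P N 𝒪)ˣ := deltaUnit P.p (aT N) 𝒪 (eT N v)

/-! ### the point -/

/-- `t ℓ = tr ρ̄(Frob_ℓ)` -/
def tFrob {k : Type} [Field k] (ρbar : ResidualGaloisRep k) (ℓ : ℕ) : k :=
  open Classical in
  if h : ℓ.Prime then LinearMap.trace k ρbar.V (ρbar.ρ (globFrobAt ⟨ℓ, h⟩)) else 0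

theorem tFrob_of_prime {k : Type} [Field k] (ρbar : ResidualGaloisRep k) {ℓ : ℕ} (h : ℓ.Prime) :
    tFrob ρbar ℓ = LinearMap.trace k ρbar.V (ρbar.ρ (globFrobAt ⟨ℓ, h⟩)) := by
  unfold tFrob
  rw [dif_pos h]

/-- a chosen eigenvalue `α_q` of `ρ̄(Frob_q)` at a prime where the eigenvalues are distinct -/
def alphaQ {k : Type} [Field k] (ρbar : ResidualGaloisRep k) (q : ℕ) : k :=
  open Classical in
  if h : ∃ (hq : q.Prime) (a b : k), a ≠ b ∧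
      LinearMap.charpoly (ρbar.ρ (globFrobAt ⟨q, hq⟩)) = (X - C a) * (X - C b) then
    h.choose_spec.choose
  else 0

theorem alphaQ_spec {k : Type} [Field k] (ρbar : ResidualGaloisRep k) {q : ℕ} (hq : q.Prime)
    (h : ∃ a b : k, a ≠ b ∧
      LinearMap.charpoly (ρbar.ρ (globFrobAt ⟨q, hq⟩)) = (X - C a) * (X - C b)) :
    ∃ b : k, alphaQ ρbar q ≠ b ∧
      LinearMap.charpoly (ρbar.ρ (globFrobAt ⟨q, hq⟩)) = (X - C (alphaQ ρbar q)) * (X - C b) := by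
  have h' : ∃ (hq : q.Prime) (a b : k), a ≠ b ∧
      LinearMap.charpoly (ρbar.ρ (globFrobAt ⟨q, hq⟩)) = (X - C a) * (X - C b) := ⟨hq, h⟩
  unfold alphaQ
  rw [dif_pos h']
  exact h'.choose_spec.choose_spec

/-! ### a Taylor–Wiles set -/

variable {r : ℕ} (n : ℕ) (qv : Fin r → ℕ)

/-- the list of the Taylor–Wiles primes -/
def QL : List ℕ := List.ofFn qv

theorem mem_QL {q : ℕ} : q ∈ QL qv ↔ ∃ i, qv i = q := by
  unfold QL
  rw [List.mem_ofFn]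

theorem dvd_QL_prod (i : Fin r) : qv i ∣ (QL qv).prod :=
  List.dvd_prod ((mem_QL qv).2 ⟨i, rfl⟩)

theorem QL_nodup (h : Function.Injective qv) : (QL qv).Nodup := List.nodup_ofFn.2 h

/-- the exponents of `Δ_Q` -/
abbrev aQ (r n : ℕ) : Fin r → ℕ := fun _ => n + 1

/-- **the diamond group** `Δ_Q = ∏_i ℤ/p^{n+1}` -/
abbrev DelQ (r n : ℕ) : Type := DeltaGrp P.p (aQ r n)

/-- **the character** `κ : (ℤ/∏Q)ˣ → Δ_Q` -/
def kapQ : (ZMod (QL qv).prod)ˣ →* DelQ P r n :=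
  MonoidHom.pi fun i : Fin r =>
    (kap P.p (n + 1) (qv i)).comp (ZMod.unitsMap (dvd_QL_prod qv i))

theorem kapQ_apply (u : (ZMod (QL qv).prod)ˣ) (i : Fin r) :
    kapQ P n qv u i = kap P.p (n + 1) (qv i) (ZMod.unitsMap (dvd_QL_prod qv i) u) := rfl

/-! ### arithmetic of the levels -/

section Arith

variable {P N} {r : ℕ} {n : ℕ} {qv : Fin r → ℕ}

theorem QL_prod (qv : Fin r → ℕ) : (QL qv).prod = ∏ i, qv i := by
  unfold QL
  rw [List.prod_ofFn]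

/-- the set `S' = {p, 2} ∪ T ∪ Q` -/
abbrev SQ (P : FreyPackage) (N : ℕ) (qv : Fin r → ℕ) : Finset ℕ :=
  {P.p, 2} ∪ oddPrimes N ∪ Finset.univ.image qv

theorem tp_SQ (hpN : ¬ P.p ∣ N) (hinj : Function.Injective qv)
    (hqv : ∀ i, (qv i).Prime ∧ qv i ∉ ({P.p, 2} ∪ oddPrimes N : Finset ℕ)) :
    tp P.p (SQ P N qv) = (∏ v ∈ oddPrimes N, v) * (QL qv).prod := by
  classical
  have hpT : P.p ∉ oddPrimes N := fun h => hpN (mem_oddPrimes.1 h).2.1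
  have h2T : 2 ∉ oddPrimes N := fun h => (mem_oddPrimes.1 h).2.2.2 rfl
  have hqS : ∀ i, qv i ∉ ({P.p, 2} : Finset ℕ) ∧ qv i ∉ oddPrimes N := fun i =>
    ⟨fun h => (hqv i).2 (Finset.mem_union_left _ h), fun h => (hqv i).2 (Finset.mem_union_right _ h)⟩
  have hset : ((SQ P N qv) \ {P.p, 2}).filter Nat.Prime = oddPrimes N ∪ Finset.univ.image qv := by
    ext ℓ
    simp only [Finset.mem_filter, Finset.mem_sdiff, Finset.mem_union, Finset.mem_image,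
      Finset.mem_univ, true_and]
    constructor
    · rintro ⟨⟨(h | h) | h, h2⟩, -⟩
      · exact absurd h h2
      · exact Or.inl h
      · exact Or.inr h
    · rintro (h | ⟨i, rfl⟩)
      · refine ⟨⟨Or.inl (Or.inr h), fun h' => ?_⟩, prime_of_mem_oddPrimes h⟩
        rw [Finset.mem_insert, Finset.mem_singleton] at h'
        rcases h' with h' | h'
        · exact hpT (h' ▸ h)
        · exact h2T (h' ▸ h)
      · exact ⟨⟨Or.inr ⟨i, rfl⟩, (hqS i).1⟩, (hqv i).1⟩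
  have hdisj : Disjoint (oddPrimes N) (Finset.univ.image qv) := by
    rw [Finset.disjoint_right]
    intro ℓ hℓ
    obtain ⟨i, -, rfl⟩ := Finset.mem_image.1 hℓ
    exact (hqS i).2
  unfold tp
  rw [hset, Finset.prod_union hdisj, Finset.prod_image (fun i _ j _ h => hinj h), QL_prod]

/-- **the level equation** `M₀ · ∏Q = 2 · tp(S')` -/
theorem M₀_mul_prod (hpN : ¬ P.p ∣ N) (hinj : Function.Injective qv)
    (hqv : ∀ i, (qv i).Prime ∧ qv i ∉ ({P.p, 2} ∪ oddPrimes N : Finset ℕ)) :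
    M₀ N * (QL qv).prod = 2 * tp P.p (SQ P N qv) := by
  rw [tp_SQ hpN hinj hqv, M₀, mul_assoc]

/-- the base level: `M₀ = 2 · tp(S)` -/
theorem M₀_eq (hpN : ¬ P.p ∣ N) : M₀ N = 2 * tp P.p ({P.p, 2} ∪ oddPrimes N) := by
  have h := M₀_mul_prod (P := P) (N := N) (qv := (Fin.elim0 : Fin 0 → ℕ)) hpN
    (fun i => i.elim0) (fun i => i.elim0)
  have h1 : (QL (Fin.elim0 : Fin 0 → ℕ)).prod = 1 := by
    rw [QL_prod]
    rfl
  rw [h1, mul_one] at h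
  rw [h]
  congr 2
  ext ℓ
  simp

theorem prime_dvd_M₀ {ℓ : ℕ} (hℓ : ℓ.Prime) (h : ℓ ∣ M₀ N) : ℓ = 2 ∨ ℓ ∈ oddPrimes N := by
  unfold M₀ at h
  rcases (Nat.Prime.dvd_mul hℓ).1 h with h | h
  · exact Or.inl ((Nat.prime_dvd_prime_iff_eq hℓ Nat.prime_two).1 h)
  · obtain ⟨v, hv, hdvd⟩ := (Prime.dvd_finsetProd_iff hℓ.prime _).1 h
    have : ℓ = v := (Nat.prime_dvd_prime_iff_eq hℓ (prime_of_mem_oddPrimes hv)).1 hdvd
    exact Or.inr (this ▸ hv)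

theorem M₀_coprime_QL (hqv : ∀ i, (qv i).Prime ∧ qv i ∉ ({P.p, 2} ∪ oddPrimes N : Finset ℕ)) :
    (M₀ N).Coprime (QL qv).prod := by
  rw [QL_prod]
  refine Nat.Coprime.prod_right fun i _ => ?_
  rw [Nat.coprime_comm, Nat.Prime.coprime_iff_not_dvd (hqv i).1]
  intro h
  rcases prime_dvd_M₀ (hqv i).1 h with h2 | h2
  · exact (hqv i).2 (Finset.mem_union_left _ (by rw [h2]; simp))
  · exact (hqv i).2 (Finset.mem_union_right _ h2)

theorem M₀_mul_QL_ne_zero (hqv : ∀ i, (qv i).Prime) : M₀ N * (QL qv).prod ≠ 0 := by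
  rw [QL_prod]
  exact mul_ne_zero (M₀_ne_zero N) (Finset.prod_ne_zero_iff.2 fun i _ => (hqv i).ne_zero)

end Arith

/-! ### the concrete Hecke objects -/

section Objects

variable {P N} (Sg : SideGal P N)

/-- the point `t ℓ = tr ρ̄(Frob_ℓ)` -/
abbrev tS : ℕ → ResidueField Sg.𝒪 := tFrob Sg.ρbar

/-- the values `α_q` -/
abbrev aS : ℕ → ResidueField Sg.𝒪 := alphaQ Sg.ρbar

/-- **the Hecke datum at the base level** -/
abbrev H0 : AbsHecke Sg.𝒪 (G₀ P N) (Idx P.p (M₀ N)) := abs0 P.p (χ₀ P N) (tS Sg)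

/-- **the Hecke module `M_∅`** -/
abbrev M0 : Type := Mod0 (𝒪 := Sg.𝒪) P.p (χ₀ P N) (tS Sg)

/-- **the Hecke algebra `𝕋_∅`** -/
abbrev T0 : Type := HO.T0 (𝒪 := Sg.𝒪) P.p (χ₀ P N) (tS Sg)

variable {r : ℕ} (n : ℕ) (qv : Fin r → ℕ) [NeZero (M₀ N * (QL qv).prod)]
  (hcop : (M₀ N).Coprime (QL qv).prod)

/-- **the Hecke datum at the level `Q`** -/
abbrev HQ : AbsHecke Sg.𝒪 (G₀ P N × DelQ P r n) (Idx P.p (M₀ N)) :=
  absQ P.p (χ₀ P N) (QL qv) hcop (kapQ P n qv) (tS Sg) (aS Sg)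

/-- **the Hecke module `M_Q`** -/
abbrev MQ : Type := ModQ P.p (χ₀ P N) (QL qv) hcop (kapQ P n qv) (tS Sg) (aS Sg)

/-- **the Hecke algebra `𝕋_Q`** -/
abbrev TQ : Type := HO.BQ P.p (χ₀ P N) (QL qv) hcop (kapQ P n qv) (tS Sg) (aS Sg)

/-- **the standing hypotheses of the Hecke side** (all consequences of the hypotheses of `SideBlock`):
the values of the Hecke characters `θ_{S'}` are the Frobenius traces of `ρ̄`, non-Eisenstein primes exist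
in every arithmetic progression `1 mod m`, and the base Hecke module does not vanish. -/
structure HubHyp : Prop where
  hpN : ¬ P.p ∣ N
  hT1 : ∀ v ∈ oddPrimes N, v ≡ 1 [MOD P.p]
  hθ : ∀ (S' : Finset ℕ) (hS' : Sg.good S') (ℓ : ℕ) (hℓ : ℓ.Prime) (hℓN : ¬ ℓ ∣ lvlTw P.p S')
    (hℓS : ℓ ∉ (↑S' : Set ℕ)),
    Sg.D.θ S' hS' (CuspForm.heckeAlgebra.T hℓ hℓN hℓS) = tS Sg ℓ
  ha : ∀ ℓ : ℕ, ℓ.Prime → ℓ ∉ Sg.D.S₀ → tS Sg ℓ = ((Sg.D.a ℓ : ℤ) : ResidueField Sg.𝒪)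
  hne : ∀ m : ℕ, 0 < m → ∀ S₀ : Finset ℕ, ∃ ℓ₀ : ℕ, ℓ₀.Prime ∧ ℓ₀ ∉ S₀ ∧ m ∣ ℓ₀ - 1 ∧
    tS Sg ℓ₀ ≠ ((ℓ₀ + 1 : ℕ) : ResidueField Sg.𝒪)
  nontriv : Nontrivial (M0 Sg)

end Objects

end Fermat.Agent.S43lib.Mod4.Hub
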