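-- Project H (S43), LAYER 4, Galois side (GS): from a family of "trace rings" (complete noetherian local
-- `𝒪`-algebras `R_{S'}` carrying a representation of the flat type which reduces to `ρbar` and is
-- generated by its traces — in the application the localised Hecke algebras with their Galois
-- representations) to the Taylor–Wiles sets and the presentations
--     `γ : 𝒪⟦(T × Bool × Fin 2 × Fin 2) ⊕ Fin (r − 3|T|)⟧ ↠ R_{S ∪ Q_n}`
-- of helper4's `tw_surj_flatFam`.  The point: for the TAUTOLOGICAL family of conditions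
--     `E S' ρ_A := "ρ_A is, in suitable bases, the image of ρ_{S'} under a local map R_{S'} → A"`
-- the pair `(R_{S'}, ρ_{S'})` IS a `DeformationRingData` (no universal deformation ring needed).
import Mathlib
import Fermat.Agent.S43lib.B3.Surj

set_option autoImplicit false
set_option linter.unusedSectionVars false
set_option linter.style.haveILetI false

noncomputable section

namespace Fermat.Agent.S43lib.Mod4

open IsLocalRing Polynomial Fermat.Agent.TeamA Fermat.Agent.TeamA.Rep Fermat.Agent.S55lib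
  Fermat.Agent.S56lib.Dict Fermat.Agent.S56lib.PT9a Fermat.Agent.S56lib.TWSel
  Fermat.Agent.S56lib.Main Fermat.Agent.S56lib ExtCitation Fermat.Agent.S43lib.B3

attribute [local instance] dualNumberAlgebra

/-- `G_ℚ` -/
local notation "GQ" => (AlgebraicClosure ℚ ≃ₐ[ℚ] AlgebraicClosure ℚ)

variable {𝒪 : Type} [CommRing 𝒪] [IsDomain 𝒪] [IsDiscreteValuationRing 𝒪]
  [IsAdicComplete (maximalIdeal 𝒪) 𝒪]

/-- A trace ring at the ramification set `S'`. -/
structure TrRing (𝒪 : Type) [CommRing 𝒪] [IsDomain 𝒪] [IsDiscreteValuationRing 𝒪]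
    [IsAdicComplete (maximalIdeal 𝒪) 𝒪] (ρbar : ResidualGaloisRep (ResidueField 𝒪)) (p : ℕ)
    (Smin S' : Finset ℕ) : Type 1 where
  R : Type
  [instCommRing : CommRing R]
  [instIsLocalRing : IsLocalRing R]
  [instIsNoetherianRing : IsNoetherianRing R]
  [instIsAdicComplete : IsAdicComplete (maximalIdeal R) R]
  [instAlgebra : Algebra 𝒪 R]
  [instIsLocalHom : IsLocalHom (algebraMap 𝒪 R)]
  residue_surjective : Function.Surjective (residue R ∘ algebraMap 𝒪 R)
  ρ : GaloisRepAdic R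
  isFl : 𝒟fl 𝒪 p Smin S' ρ
  residual_isEquiv : ρ.residual.IsEquiv
    (ρbar.baseChangeAlong (ResidueField.map (algebraMap 𝒪 R)))
  /-- `R` is generated by the traces -/
  trace_gen : ∀ (A : Type) [CommRing A] [Algebra 𝒪 A] (φ φ' : R →ₐ[𝒪] A),
    (∀ σ, φ (ρ.trace σ) = φ' (ρ.trace σ)) → φ = φ'

attribute [instance] TrRing.instCommRing TrRing.instIsLocalRing TrRing.instIsNoetherianRing
  TrRing.instIsAdicComplete TrRing.instAlgebra TrRing.instIsLocalHom

variable {ρbar : ResidualGaloisRep (ResidueField 𝒪)} {p : ℕ} {Smin : Finset ℕ}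

/-- The tautological family of conditions attached to a family of trace rings indexed by the
"good" ramification sets (`False` at the others). -/
def tautE {good : Finset ℕ → Prop} (F : ∀ S' : Finset ℕ, good S' → TrRing 𝒪 ρbar p Smin S')
    (S' : Finset ℕ) :
    ∀ ⦃A : Type⦄ [CommRing A] [IsLocalRing A] [Algebra 𝒪 A], GaloisRepAdic A → Prop :=
  fun A _ _ _ ρA => ∃ (hS' : good S') (f : (F S' hS').R →ₐ[𝒪] A)
    (_ : IsLocalHom (f : (F S' hS').R →+* A))
    (b : Module.Basis (Fin 2) (F S' hS').R (F S' hS').ρ.V) (bA : Module.Basis (Fin 2) A ρA.V),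
    ∀ g, matOf ρA bA g = (matOf (F S' hS').ρ b g).map f

theorem trace_eq_trace_matOf {A : Type} [CommRing A] [IsLocalRing A] (ρ : GaloisRepAdic A)
    (b : Module.Basis (Fin 2) A ρ.V) (g : GQ) : ρ.trace g = (matOf ρ b g).trace :=
  LinearMap.trace_eq_matrix_trace A b (ρ.ρ g)

theorem trace_map {A B : Type} [CommRing A] [CommRing B] (f : A →+* B)
    (M : Matrix (Fin 2) (Fin 2) A) : (M.map f).trace = f M.trace := by
  rw [Matrix.trace_fin_two, Matrix.trace_fin_two, map_add]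
  rfl

theorem trace_eq_of_conj {A : Type} [CommRing A] {M M' X Y : Matrix (Fin 2) (Fin 2) A}
    (h1 : M * M' = 1) (h2 : M' * M = 1) (h : M * X = Y * M) : X.trace = Y.trace := by
  have : X = M' * (Y * M) := by rw [← h, ← mul_assoc, h2, one_mul]
  rw [this, Matrix.trace_mul_comm, mul_assoc, h1, mul_one]

variable (habs : ρbar.IsAbsolutelyIrreducible) {good : Finset ℕ → Prop}
  (F : ∀ S' : Finset ℕ, good S' → TrRing 𝒪 ρbar p Smin S')

/-- **`(R_{S'}, ρ_{S'})` is a universal deformation for the tautological family.** -/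
def dq (S' : Finset ℕ) (hS' : good S') :
    GaloisRep.DeformationRingData 𝒪 ρbar (𝒟flF 𝒪 p Smin (tautE F) S') where
  R := (F S' hS').R
  residue_surjective := (F S' hS').residue_surjective
  absIrr := habs
  ρ := (F S' hS').ρ
  isOfType := by
    refine ⟨(F S' hS').isFl, hS', AlgHom.id 𝒪 _, ?_, ?_⟩
    · exact ⟨fun a ha => ha⟩
    · obtain ⟨b⟩ : Nonempty (Module.Basis (Fin 2) (F S' hS').R (F S' hS').ρ.V) :=
        ⟨Module.finBasisOfFinrankEq _ _ (F S' hS').ρ.finrank_eq⟩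
      refine ⟨b, b, fun g => ?_⟩
      ext i j
      rfl
  residual_isEquiv := (F S' hS').residual_isEquiv
  universal := by
    intro A _ _ _ _ _ _ _ ρA hρA _
    obtain ⟨-, _, f, hf, b, bA, hfb⟩ := hρA
    refine ⟨f, ⟨hf, ?_⟩, ?_⟩
    · refine isEquiv_of_matOf_eq _ _
        (bcBasis (f : (F S' hS').R →+* A) hf (F S' hS').ρ b) bA fun g => ?_
      rw [matOf_baseChangeAlong, hfb]
      rfl
    · rintro φ' ⟨hφ', hE⟩
      refine (F S' hS').trace_gen A φ' f fun σ => ?_
      obtain ⟨M, M', h1, h2, hc⟩ := exists_conj_of_isEquiv _ _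
        (bcBasis (φ' : (F S' hS').R →+* A) hφ' (F S' hS').ρ b) bA hE
      have e1 := trace_eq_of_conj h1 h2 (hc σ)
      rw [matOf_baseChangeAlong, hfb, trace_map] at e1
      have e2 : ((matOf (F S' hS').ρ b σ).map f).trace = f (matOf (F S' hS').ρ b σ).trace :=
        trace_map (f : (F S' hS').R →+* A) _
      rw [trace_eq_trace_matOf (F S' hS').ρ b σ]
      exact e1.trans e2

theorem dq_R (S' : Finset ℕ) (hS' : good S') : (dq habs F S' hS').R = (F S' hS').R := rfl

theorem dq_ρ (S' : Finset ℕ) (hS' : good S') : (dq habs F S' hS').ρ = (F S' hS').ρ := rfl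

omit habs in
/-- The tautological family is stable under base change to `k[ε]`. -/
theorem tautE_bc (S' : Finset ℕ)
    (DQ : GaloisRep.DeformationRingData 𝒪 ρbar (𝒟flF 𝒪 p Smin (tautE F) S'))
    (φ : DQ.R →ₐ[𝒪] DualNumber (ResidueField 𝒪)) : tautE F S' (tanRep DQ φ) := by
  obtain ⟨-, hS', f, hf, b, bDQ, h⟩ := DQ.isOfType
  haveI := hf
  haveI : IsLocalHom (φ : DQ.R →+* DualNumber (ResidueField 𝒪)) := isLocalHom_of_isTestAlg φ
  refine ⟨hS', φ.comp f, ?_, b, bcBasis (φ : DQ.R →+* DualNumber (ResidueField 𝒪))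
    (isLocalHom_of_isTestAlg φ) DQ.ρ bDQ, fun g => ?_⟩
  · exact RingHom.isLocalHom_comp (φ : DQ.R →+* DualNumber (ResidueField 𝒪))
      (f : (F S' hS').R →+* DQ.R)
  · have h1 := matOf_baseChangeAlong (φ : DQ.R →+* DualNumber (ResidueField 𝒪))
      (isLocalHom_of_isTestAlg φ) DQ.ρ bDQ g
    unfold tanRep
    rw [h1, h g, Matrix.map_map]
    rfl

omit habs in
/-- The tautological family is stable under equivalence. -/
theorem tautE_iso (S' : Finset ℕ) {A : Type} [CommRing A] [IsLocalRing A] [Algebra 𝒪 A]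
    (ρ ρ' : GaloisRepAdic A) (he : ρ.IsEquiv ρ') (h : tautE F S' ρ) : tautE F S' ρ' := by
  obtain ⟨hS', f, hf, b, bA, hfb⟩ := h
  obtain ⟨e⟩ := he
  refine ⟨hS', f, hf, b, bA.map e.toLinearEquiv, fun g => ?_⟩
  rw [← hfb g]
  ext i j
  unfold matOf
  rw [LinearMap.toMatrix_apply, LinearMap.toMatrix_apply, Module.Basis.map_apply,
    Module.Basis.map_repr, LinearEquiv.trans_apply, ← e.map_apply, LinearEquiv.symm_apply_apply]

variable [Finite (ResidueField 𝒪)]

/-- **(GS)**: the Taylor–Wiles sets and the presentations of the trace rings. -/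
theorem gs_surj
    [hp : Fact p.Prime] (hp2 : p ≠ 2) (hp𝒪 : (p : 𝒪) ∈ maximalIdeal 𝒪)
    (hdet : (GaloisRepAdic.ofResidualGaloisRep ρbar).DetIsCyclotomic p)
    (hsplit : ∀ σ : GQ,
      ∃ α β : ResidueField 𝒪, LinearMap.charpoly (ρbar.ρ σ) = (X - C α) * (X - C β))
    (hTW : ∀ (K : Type) [Field K] [Algebra (ResidueField 𝒪) K]
      (G : Subgroup GQ), G.index = 2 →
      ∀ V : Submodule K (ρbar.baseChange K).V,
        (∀ σ ∈ G, ∀ x ∈ V, (ρbar.baseChange K).ρ σ x ∈ V) → V = ⊥ ∨ V = ⊤)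
    (S T : Finset ℕ) (hpSmin : p ∈ Smin) (hSmin : Smin ⊆ S) (hTS : T ⊆ S)
    (hTdisj : Disjoint Smin T)
    (hmin : ∀ q : ℕ, q.Prime → q ≠ p → (q ∈ Smin ↔ ¬ ρbar.IsUnramifiedAt q))
    (bbar : Module.Basis (Fin 2) (ResidueField 𝒪) ρbar.V)
    (hscal : ∀ v : Nat.Primes, (v : ℕ) ∈ T → ∀ g : Gloc v, ∃ a : ResidueField 𝒪,
      resHom ρbar bbar (rloc v g) = a • (1 : Matrix (Fin 2) (Fin 2) (ResidueField 𝒪)))
    (φ₀ : ↥(primesIn T) → 𝒪)
    (hφ₀ : ∀ v : ↥(primesIn T), resHom ρbar bbar (globFrobAt (v : Nat.Primes)) =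
      residue 𝒪 (φ₀ v) • (1 : Matrix (Fin 2) (Fin 2) (ResidueField 𝒪))) :
    ∃ r : ℕ, ∀ n : ℕ, ∃ qv : Fin r → ℕ, Function.Injective qv ∧
      (∀ i, (qv i).Prime ∧ qv i ∉ S ∧ p ^ (n + 1) ∣ qv i - 1) ∧
      (∀ i, ∀ P : ValuationSubring (AlgebraicClosure ℚ), P.LiesOverPrime (qv i) →
        ∀ φ : GQ, P.IsFrobeniusAt φ (qv i) →
          ∃ α β : ResidueField 𝒪, α ≠ β ∧
            LinearMap.charpoly (ρbar.ρ φ) = (X - C α) * (X - C β)) ∧
      ∀ hS' : good (Smin ∪ T ∪ Finset.univ.image qv),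
        3 * (primesIn T).card ≤ r ∧
        ∃ B : Based (dq habs F (Smin ∪ T ∪ Finset.univ.image qv) hS'), B.bbar = bbar ∧
        ∃ γ : MvPowerSeries ((↥(primesIn T) × Bool × Fin 2 × Fin 2) ⊕
            Fin (r - 3 * (primesIn T).card)) 𝒪 →ₐ[𝒪]
            (F (Smin ∪ T ∪ Finset.univ.image qv) hS').R,
          Function.Surjective γ ∧
          (∀ (v : ↥(primesIn T)) (i j : Fin 2),
            γ (MvPowerSeries.X (Sum.inl (v, false, i, j))) =
              matOf (F (Smin ∪ T ∪ Finset.univ.image qv) hS').ρ B.bR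
                  (globFrobAt (v : Nat.Primes)) i j -
                (if i = j then algebraMap 𝒪 _ (φ₀ v) else 0)) ∧
          (∀ (v : ↥(primesIn T)) (i j : Fin 2),
            γ (MvPowerSeries.X (Sum.inl (v, true, i, j))) =
              matOf (F (Smin ∪ T ∪ Finset.univ.image qv) hS').ρ B.bR
                  (globGenAt (v : Nat.Primes) p) i j -
                (if i = j then 1 else 0)) := by
  obtain ⟨r, hr⟩ := tw_surj_flatFam p hp2 hp𝒪 ρbar habs hdet hsplit hTW S Smin T hpSmin hSmin hTS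
    hTdisj hmin bbar hscal (tautE F) (fun S' DQ φ _ => tautE_bc F S' DQ φ)
    (fun S' ρ ρ' he h => tautE_iso F S' ρ ρ' he h) φ₀ hφ₀
  refine ⟨r, fun n => ?_⟩
  obtain ⟨qv, hinj, hqv, hfrob, hDQ⟩ := hr n
  refine ⟨qv, hinj, hqv, hfrob, fun hS' => ?_⟩
  obtain ⟨B, hB⟩ := exists_based (dq habs F (Smin ∪ T ∪ Finset.univ.image qv) hS') bbar
  obtain ⟨h3, γ, hγ, h1, h2⟩ := hDQ _ B hB
  exact ⟨h3, B, hB, γ, hγ, h1, h2⟩

end Fermat.Agent.S43lib.Mod4
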