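-- Project H (S43), LAYER 4, the final assembly of the Hecke side: `SideBlock` from the bricks.
import Mathlib
import Fermat.Agent.S43lib.Mod4.Side
import Fermat.Agent.S43lib.Mod4.LamPkg
import Fermat.Agent.S43lib.B2.Bridge.AsmHub
import Fermat.Agent.S43lib.B2.Bridge.CompatHub
import Fermat.Agent.S43lib.Mod4x.HubHypMk
import Fermat.Agent.S43lib.Mod4x.NonVan
import Fermat.Agent.S43lib.Mod4x.Readout
import Fermat.Agent.S43lib.Mod4x.LGCGlueTR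
import Fermat.Agent.S43lib.B0.End.Glue
import Fermat.Agent.S43lib.B1.Control

set_option autoImplicit false
set_option linter.unusedSectionVars false
set_option linter.style.haveILetI false

noncomputable section

namespace Fermat.Agent.S43lib.Mod4.Hub

open IsLocalRing Polynomial CuspForm Fermat.Agent.S43lib.B3 Fermat.Agent.S43lib.Loc
  Fermat.Agent.S56lib.Main Fermat.Agent.S43lib.Mod4.HO Fermat.Agent.S56lib.TW ExtCitation
  Fermat.Agent.S43lib.BigImg WeierstrassCurve WeierstrassCurve.Affine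
  WeierstrassCurve.Affine.Point FreyPackage Fermat.Agent.S56lib.TWSel

/-- `G_ℚ` -/
local notation "GQ" => (AlgebraicClosure ℚ ≃ₐ[ℚ] AlgebraicClosure ℚ)
local notation "Qb" => AlgebraicClosure ℚ

attribute [local instance] lamAlgebraQ lamAlgebra0

variable {P : FreyPackage} {N : ℕ} (Sg : SideGal P N)

/-! ### the group ring `Λ` -/

theorem isLocalRing_Lam : IsLocalRing (Lam P N Sg.𝒪) :=
  isLocalRing_monoidAlgebra P.p Sg.hp𝒪 (isPGroup_deltaGrp P.p (aT N))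

/-- the `Λ`-module structure of `M_∅` -/
@[reducible] def moduleLamM0 : Module (Lam P N Sg.𝒪) (M0 Sg) :=
  Module.compHom (M0 Sg) (algebraMap (Lam P N Sg.𝒪) (T0 Sg))

attribute [local instance] moduleLamM0

theorem isScalarTower_LamM0 : IsScalarTower (Lam P N Sg.𝒪) (T0 Sg) (M0 Sg) :=
  ⟨fun x t m => by
    show (algebraMap (Lam P N Sg.𝒪) (T0 Sg) x * t) • m = algebraMap (Lam P N Sg.𝒪) (T0 Sg) x • t • m
    rw [mul_smul]⟩

theorem isScalarTower_𝒪LamM0 : IsScalarTower Sg.𝒪 (Lam P N Sg.𝒪) (M0 Sg) :=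
  ⟨fun a x m => by
    haveI := isScalarTower_0 (H0 Sg) (J₀' := Set.univ)
    show algebraMap (Lam P N Sg.𝒪) (T0 Sg) (a • x) • m =
      a • algebraMap (Lam P N Sg.𝒪) (T0 Sg) x • m
    rw [Algebra.smul_def, map_mul, ← IsScalarTower.algebraMap_apply, mul_smul, algebraMap_smul]⟩


theorem finite_Lam_T0 (hgood0 : (H0 Sg).Good P.p) : Module.Finite (Lam P N Sg.𝒪) (T0 Sg) := by
  haveI := (H0 Sg).finite_hecke Set.univ hgood0
  haveI := isScalarTower_0 (H0 Sg) (J₀' := Set.univ)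
  exact Module.Finite.of_restrictScalars_finite Sg.𝒪 (Lam P N Sg.𝒪) (T0 Sg)

theorem finite_Lam_M0 (hgood0 : (H0 Sg).Good P.p) : Module.Finite (Lam P N Sg.𝒪) (M0 Sg) := by
  haveI : Module.Finite Sg.𝒪 (M0 Sg) := hgood0.fin
  haveI := isScalarTower_𝒪LamM0 Sg
  exact Module.Finite.of_restrictScalars_finite Sg.𝒪 (Lam P N Sg.𝒪) (M0 Sg)

/-- `tG g − 1` lies in every ideal containing the image of `ker χB` -/
theorem tG_sub_one_mem_of_le (𝔭 : Ideal (T0 Sg))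
    (h : (RingHom.ker (chiOf P N Sg.𝒪 1 (one_pow _) : Lam P N Sg.𝒪 →+* Sg.𝒪)).map
      (algebraMap (Lam P N Sg.𝒪) (T0 Sg)) ≤ 𝔭) (g : G₀ P N) :
    (H0 Sg).tG Set.univ g - 1 ∈ 𝔭 := by
  have h1 : MonoidAlgebra.of Sg.𝒪 (G₀ P N) g - 1 ∈
      RingHom.ker (chiOf P N Sg.𝒪 1 (one_pow _) : Lam P N Sg.𝒪 →+* Sg.𝒪) := by
    rw [RingHom.mem_ker, map_sub, map_one, sub_eq_zero]
    exact chiOf_one_of P N Sg.𝒪 g
  have h2 := h (Ideal.mem_map_of_mem _ h1)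
  rw [map_sub, map_one, algebraMap_of_0] at h2
  exact h2

/-! ### the base -/

/-- **the level-independent data** -/
@[reducible] def sideBase {q : ℕ} (hpN : ¬ P.p ∣ N) (hq : q.Prime) (hq2 : q ≠ 2) (hqN : q ∣ N)
    (hN0 : N ≠ 0) (hirr : GaloisRepIsIrreducible (K := Qb) ℚ P.freyCurve P.p)
    (hT : ∀ r : ℕ, r.Prime → r ≠ 2 → r ∣ N →
      P.GaloisRepUnramifiedAt r ∧ r ≡ 1 [MOD P.p] ∧ DecompScalarAt P r)
    (d : ℕ) (hd : 0 < d) (hgood0 : (H0 Sg).Good P.p)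
    (β₀ : (Sg.F Sg.S Sg.hgoodS).R →ₐ[Sg.𝒪] T0 Sg)
    (hread : ∀ 𝔭 : Ideal (T0 Sg), 𝔭.IsPrime → (∀ g : G₀ P N, (H0 Sg).tG Set.univ g - 1 ∈ 𝔭) →
      ((P.p : ℕ) : T0 Sg) ∉ 𝔭 →
      (∀ h : GQ, β₀ ((Sg.F Sg.S Sg.hgoodS).ρ.trace (globGenAt ⟨q, hq⟩ P.p * h)) -
        β₀ ((Sg.F Sg.S Sg.hgoodS).ρ.trace h) ∈ 𝔭) → P.ModularRepOfLevel (N / q)) :
    SideBase P N q :=
  letI := isLocalRing_Lam Sg
  { 𝒪 := Sg.𝒪
    p := P.p
    hp := P.pp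
    hp2 := Sg.hp2
    hp𝒪 := Sg.hp𝒪
    ρbar := Sg.ρbar
    habs := Sg.habs hirr
    hdet := Sg.hdet
    hsplit := Sg.hsplit
    hTW := Sg.hTW hirr
    S := Sg.S
    Smin := Sg.Smin
    T := Sg.T
    hpSmin := Sg.hpSmin
    hSmin := Sg.hSmin
    hTS := Sg.hTS
    hTdisj := Sg.hTdisj hpN
    hmin := Sg.hmin
    bbar := Sg.bbar
    hscal := Sg.hscal hT
    φ₀ := Sg.φ₀
    hφ₀ := Sg.hφ₀
    hφ₀sq := Sg.hφ₀sq
    hT1 := Sg.hT1 hT
    q₀ := Sg.q₀ hq hq2 hqN hN0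
    good := Sg.good
    F := Sg.F
    hgoodS := Sg.hgoodS
    hgoodQ := Sg.hgoodQ
    Λ := Lam P N Sg.𝒪
    instIsLocalRingΛ := isLocalRing_Lam Sg
    instIsNoetherianRingΛ := isNoetherianRing_monoidAlgebra
    instIsAdicCompleteΛ := isAdicComplete_monoidAlgebra
    instFiniteResidueFieldΛ := finite_residueField_monoidAlgebra
    χA := chiOf P N Sg.𝒪 ((Sg.ζ₀ : Sg.𝒪ˣ) : Sg.𝒪) Sg.ζ₀_pow
    χB := chiOf P N Sg.𝒪 1 (one_pow _)
    ker_sup := fun ϖ hϖ => ker_chiOf_sup P N Sg.hp𝒪 _ Sg.ζ₀_pow ϖ hϖ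
    ζ := fun _ => Sg.ζ₀
    ζ_pow := fun _ => Sg.ζ₀_pow
    ζ_sq := fun _ => Sg.ζ₀_sq
    g := gT P N Sg.𝒪
    χA_g := fun v => chiOf_gT P N Sg.𝒪 _ Sg.ζ₀_pow v
    χB_g := fun v => chiOf_gT P N Sg.𝒪 1 (one_pow _) v
    d := d
    hd := hd
    T0 := T0 Sg
    instAlgebraT0 := lamAlgebra0 (H0 Sg) (J₀' := Set.univ)
    instFiniteT0 := finite_Lam_T0 Sg hgood0
    M0 := M0 Sg
    instModuleΛM0 := moduleLamM0 Sg
    instModuleT0M0 := HO.instModuleT0 P.p (χ₀ P N) (tS Sg)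
    instIsScalarTowerM0 := isScalarTower_LamM0 Sg
    instFiniteM0 := finite_Lam_M0 Sg hgood0
    β₀ := β₀
    readout := fun 𝔭 h𝔭 hχ hp hJ =>
      hread 𝔭 h𝔭 (tG_sub_one_mem_of_le Sg 𝔭 hχ) hp hJ }


/-! ### `2` and `3` are invertible -/

theorem isUnit_natCast_of_coprime_p {A : Type*} [CommRing A] [IsLocalRing A] {p n : ℕ}
    (hpA : (p : A) ∈ maximalIdeal A) (h : Nat.Coprime n p) : IsUnit (n : A) := by
  by_contra hn
  have hnm : (n : A) ∈ maximalIdeal A := by rwa [mem_maximalIdeal, mem_nonunits_iff]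
  have h1 : (1 : A) = (n : A) * ((Nat.gcdA n p : ℤ) : A) + (p : A) * ((Nat.gcdB n p : ℤ) : A) := by
    have := Nat.gcd_eq_gcd_ab n p
    rw [h] at this
    have h2 := congrArg (fun z : ℤ => (z : A)) this
    simp only [Nat.cast_one, Int.cast_one, Int.cast_add, Int.cast_mul, Int.cast_natCast] at h2
    exact h2
  have : (1 : A) ∈ maximalIdeal A := by
    rw [h1]
    exact Ideal.add_mem _ (Ideal.mul_mem_right _ _ hnm) (Ideal.mul_mem_right _ _ hpA)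
  exact (Ideal.ne_top_iff_one _).1 (maximalIdeal.isMaximal A).ne_top this

/-- `2` is invertible in `𝒪` -/
@[reducible] def hubInvTwo : Invertible (2 : Sg.𝒪) :=
  IsUnit.invertible (by
    have h := isUnit_natCast_of_coprime_p (A := Sg.𝒪) (n := 2) Sg.hp𝒪
      ((Nat.coprime_primes Nat.prime_two P.pp).2 (fun h => by have := P.hp5; omega))
    exact_mod_cast h)

/-- `3` is invertible in `𝒪` -/
@[reducible] def hubInvThree : Invertible (3 : Sg.𝒪) :=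
  IsUnit.invertible (by
    have h := isUnit_natCast_of_coprime_p (A := Sg.𝒪) (n := 3) Sg.hp𝒪
      ((Nat.coprime_primes Nat.prime_three P.pp).2 (fun h => by have := P.hp5; omega))
    exact_mod_cast h)

attribute [local instance] hubInvTwo hubInvThree

/-! ### the levels -/

section Level

variable {r : ℕ} (n : ℕ) (qv : Fin r → ℕ)

theorem natCast_mem_Lam : ((P.p : ℕ) : Lam P N Sg.𝒪) ∈
    @maximalIdeal (Lam P N Sg.𝒪) _ (isLocalRing_Lam Sg) := by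
  letI := isLocalRing_Lam Sg
  rw [mem_maximalIdeal, mem_nonunits_iff]
  intro h
  have h1 := h.map (chiOf P N Sg.𝒪 1 (one_pow _))
  rw [map_natCast] at h1
  have := Sg.hp𝒪
  rw [mem_maximalIdeal, mem_nonunits_iff] at this
  exact this h1

/-- the group ring `Λ[Δ_Q]` -/
abbrev RDel (r n : ℕ) : Type := MonoidAlgebra (Lam P N Sg.𝒪) (DelQ P r n)

theorem isLocalRing_RDel : IsLocalRing (RDel Sg r n) :=
  letI := isLocalRing_Lam Sg
  isLocalRing_monoidAlgebra P.p (natCast_mem_Lam Sg) (isPGroup_deltaGrp P.p (aQ r n))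

theorem coe_inv_deltaUnit {m : ℕ} (a : Fin m → ℕ) (Λ : Type) [CommRing Λ] (i : Fin m) :
    (((deltaUnit P.p a Λ i)⁻¹ : (MonoidAlgebra Λ (DeltaGrp P.p a))ˣ) :
      MonoidAlgebra Λ (DeltaGrp P.p a)) =
      MonoidAlgebra.of Λ (DeltaGrp P.p a) (deltaGen P.p a i)⁻¹ := by
  rw [← Units.mul_eq_one_iff_inv_eq, coe_deltaUnit, ← map_mul, mul_inv_cancel, map_one]

variable [NeZero (M₀ N * (QL qv).prod)] (hcop : (M₀ N).Coprime (QL qv).prod)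

theorem free_cast (D : TWData P.p (χ₀ P N) (QL qv) hcop (kapQ P n qv) (tS Sg) (aS Sg)) {d : ℕ}
    (hDr : D.r = d) (x : MQ Sg n qv hcop) :
    ∃! c : Fin d → RDel Sg r n, x = ∑ j, iotaHom (HQ Sg n qv hcop) (JQ P.p (M₀ N) (QL qv)) (c j) •
      D.b (Fin.cast hDr.symm j) := by
  subst hDr
  exact D.free_iota x


variable {q : ℕ} (hpN : ¬ P.p ∣ N) (hq : q.Prime) (hq2 : q ≠ 2) (hqN : q ∣ N)
    (hN0 : N ≠ 0) (hirr : GaloisRepIsIrreducible (K := Qb) ℚ P.freyCurve P.p)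
    (hT : ∀ r : ℕ, r.Prime → r ≠ 2 → r ∣ N →
      P.GaloisRepUnramifiedAt r ∧ r ≡ 1 [MOD P.p] ∧ DecompScalarAt P r)
    (d : ℕ) (hd : 0 < d) (hgood0 : (H0 Sg).Good P.p)
    (β₀ : (Sg.F Sg.S Sg.hgoodS).R →ₐ[Sg.𝒪] T0 Sg)
    (hread : ∀ 𝔭 : Ideal (T0 Sg), 𝔭.IsPrime → (∀ g : G₀ P N, (H0 Sg).tG Set.univ g - 1 ∈ 𝔭) →
      ((P.p : ℕ) : T0 Sg) ∉ 𝔭 →
      (∀ h : GQ, β₀ ((Sg.F Sg.S Sg.hgoodS).ρ.trace (globGenAt ⟨q, hq⟩ P.p * h)) -
        β₀ ((Sg.F Sg.S Sg.hgoodS).ρ.trace h) ∈ 𝔭) → P.ModularRepOfLevel (N / q))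

/-- **the data at a Taylor–Wiles set** -/
@[reducible] def sideLevel (hqv : ∀ i, (qv i).Prime) (hS' : Sg.good (SQ P N qv))
    (D : TWData P.p (χ₀ P N) (QL qv) hcop (kapQ P n qv) (tS Sg) (aS Sg)) (hDr : D.r = d)
    (hgoodQ : (HQ Sg n qv hcop).Good P.p)
    (β : (Sg.F (SQ P N qv) hS').R →ₐ[Sg.𝒪] TQ Sg n qv hcop)
    (hβloc : ∀ x ∈ maximalIdeal (Sg.F (SQ P N qv) hS').R,
      β x ∈ @maximalIdeal (TQ Sg n qv hcop) _
        ((HQ Sg n qv hcop).isLocalRing_hecke (JQ P.p (M₀ N) (QL qv)) hgoodQ))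
    (htrT : ∀ v : TT N,
      β ((Sg.F (SQ P N qv) hS').ρ.trace (globGenAt (v : Nat.Primes) P.p)) =
        (HQ Sg n qv hcop).tG (JQ P.p (M₀ N) (QL qv)) (deltaGen P.p (aT N) (eT N v), 1) +
          (HQ Sg n qv hcop).tG (JQ P.p (M₀ N) (QL qv)) ((deltaGen P.p (aT N) (eT N v))⁻¹, 1))
    (htrQ : ∀ i : Fin r,
      β ((Sg.F (SQ P N qv) hS').ρ.trace (globGenAt ⟨qv i, hqv i⟩ P.p)) =
        (HQ Sg n qv hcop).tG (JQ P.p (M₀ N) (QL qv)) (1, deltaGen P.p (aQ r n) i) +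
          (HQ Sg n qv hcop).tG (JQ P.p (M₀ N) (QL qv)) (1, (deltaGen P.p (aQ r n) i)⁻¹))
    (hcompat : ∀ h : GQ, D.e₀ (β ((Sg.F (SQ P N qv) hS').ρ.trace h)) =
      β₀ ((Sg.F Sg.S Sg.hgoodS).ρ.trace h)) :
    SideLevel (sideBase Sg hpN hq hq2 hqN hN0 hirr hT d hd hgood0 β₀ hread) r n qv hqv hS' :=
  letI := isLocalRing_Lam Sg
  letI : IsNoetherianRing (Lam P N Sg.𝒪) := isNoetherianRing_monoidAlgebra
  letI : IsAdicComplete (maximalIdeal (Lam P N Sg.𝒪)) (Lam P N Sg.𝒪) :=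
    isAdicComplete_monoidAlgebra
  letI := isLocalRing_RDel Sg (r := r) n
  letI := (HQ Sg n qv hcop).isLocalRing_hecke (JQ P.p (M₀ N) (QL qv)) hgoodQ
  { a := aQ r n
    hna := fun _ => Nat.le_succ_of_le (Nat.le_succ n)
    RΔ := RDel Sg r n
    instIsLocalRingRΔ := isLocalRing_RDel Sg n
    instIsAdicCompleteRΔ := isAdicComplete_monoidAlgebra
    RΔ_local := fun x hx => by
      rw [mem_maximalIdeal, mem_nonunits_iff] at hx ⊢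
      exact fun hu => hx (isUnit_of_map_unit (algebraMap (Lam P N Sg.𝒪) (RDel Sg r n)) x hu)
    δ := deltaUnit P.p (aQ r n) (Lam P N Sg.𝒪)
    δ_pow := deltaUnit_pow P.p (aQ r n) (Lam P N Sg.𝒪)
    δ_gen := adjoin_deltaUnit P.p (aQ r n) (Lam P N Sg.𝒪)
    lift := fun C _ _ u hu => exists_lift_deltaUnit P.p (aQ r n) (Lam P N Sg.𝒪) C u hu
    B := TQ Sg n qv hcop
    instIsLocalRingB := (HQ Sg n qv hcop).isLocalRing_hecke (JQ P.p (M₀ N) (QL qv)) hgoodQ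
    instIsAdicCompleteB :=
      (HQ Sg n qv hcop).isAdicComplete_hecke (JQ P.p (M₀ N) (QL qv)) hgoodQ
    instAlgebraB := lamAlgebraQ (HQ Sg n qv hcop) (JQ P.p (M₀ N) (QL qv))
    ι := iotaHom (HQ Sg n qv hcop) (JQ P.p (M₀ N) (QL qv))
    ι_local := fun x hx => iotaHom_local (HQ Sg n qv hcop) (JQ P.p (M₀ N) (QL qv)) hgoodQ hx
    M := MQ Sg n qv hcop
    instModuleM := HO.instModuleBQ P.p (χ₀ P N) (QL qv) hcop (kapQ P n qv) (tS Sg) (aS Sg)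
    b := fun j => D.b (Fin.cast hDr.symm j)
    free := free_cast Sg n qv hcop D hDr
    β := (β : (Sg.F (SQ P N qv) hS').R →+* TQ Sg n qv hcop)
    β_C := fun c => by
      haveI := isScalarTower_Q (HQ Sg n qv hcop) (JQ P.p (M₀ N) (QL qv))
      rw [RingHom.coe_coe, AlgHom.commutes, ← IsScalarTower.algebraMap_apply]
    β_local := hβloc
    tr_T := fun v => by
      rw [RingHom.coe_coe, htrT v]
      show _ = algebraMap (Lam P N Sg.𝒪) (TQ Sg n qv hcop)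
          ((deltaUnit P.p (aT N) Sg.𝒪 (eT N v) : (Lam P N Sg.𝒪)ˣ) : Lam P N Sg.𝒪) +
        algebraMap (Lam P N Sg.𝒪) (TQ Sg n qv hcop)
          (((deltaUnit P.p (aT N) Sg.𝒪 (eT N v))⁻¹ : (Lam P N Sg.𝒪)ˣ) : Lam P N Sg.𝒪)
      rw [coe_inv_deltaUnit, coe_deltaUnit, algebraMap_of_Q, algebraMap_of_Q]
    tr_Q := fun i => by
      rw [RingHom.coe_coe, htrQ i, coe_inv_deltaUnit, coe_deltaUnit, iotaHom_of, iotaHom_of]
    e₀ := D.e₀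
    v := D.v
    v_smul := D.v_smul
    v_surjective := D.surj
    ker_v := D.ker_v
    compat := hcompat }

end Level


/-! ### the hypotheses of `TWControlStmt` -/

section TWHyp

theorem natCast_p_residue : ((P.p : ℕ) : ResidueField Sg.𝒪) = 0 := by
  rw [← map_natCast (residue Sg.𝒪)]
  exact (residue_eq_zero_iff _).mpr Sg.hp𝒪

theorem natCast_eq_one_of_dvd {ℓ : ℕ} (hℓ : 0 < ℓ) (h : P.p ∣ ℓ - 1) :
    ((ℓ : ℕ) : ResidueField Sg.𝒪) = 1 := by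
  obtain ⟨c, hc⟩ := h
  have : ℓ = P.p * c + 1 := by omega
  rw [this, Nat.cast_add, Nat.cast_mul, natCast_p_residue, zero_mul, zero_add, Nat.cast_one]

/-- `det ρ̄(Frob_ℓ) = ℓ` -/
theorem det_rhobar_frob {ℓ : ℕ} (hℓ : ℓ.Prime) (hℓp : P.p ≠ ℓ) :
    LinearMap.det (Sg.ρbar.ρ (globFrobAt ⟨ℓ, hℓ⟩)) = ((ℓ : ℕ) : ResidueField Sg.𝒪) := by
  haveI := Fermat.Agent.S58lib.Cmp.isHausdorff_maximalIdeal_field (ResidueField Sg.𝒪)
  have h1 := det_matOf_globFrobAt P.p (GaloisRepAdic.ofResidualGaloisRep Sg.ρbar) Sg.hdet Sg.bbar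
    ⟨ℓ, hℓ⟩ hℓp
  rw [← LinearMap.det_toMatrix Sg.bbar]
  exact h1

/-- the relations between `α_q` and `t_q` -/
theorem alpha_rel {ℓ : ℕ} (hℓ : ℓ.Prime) (hℓp : P.p ≠ ℓ) (hℓ1 : ((ℓ : ℕ) : ResidueField Sg.𝒪) = 1)
    (hf : ∃ a b : ResidueField Sg.𝒪, a ≠ b ∧
      LinearMap.charpoly (Sg.ρbar.ρ (globFrobAt ⟨ℓ, hℓ⟩)) = (X - C a) * (X - C b)) :
    aS Sg ℓ * tS Sg ℓ = aS Sg ℓ ^ 2 + 1 ∧ aS Sg ℓ ^ 2 ≠ 1 := by
  obtain ⟨b, hne, hcp⟩ := alphaQ_spec Sg.ρbar hℓ hf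
  have h1 := Fermat.Agent.S34lib.charpoly_eq_of_finrank_two Sg.ρbar.finrank_eq
    (Sg.ρbar.ρ (globFrobAt ⟨ℓ, hℓ⟩))
  rw [hcp, det_rhobar_frob Sg hℓ hℓp, hℓ1, ← tFrob_of_prime Sg.ρbar hℓ] at h1
  have e1 := congrArg (fun f : (ResidueField Sg.𝒪)[X] => f.coeff 1) h1
  have e0 := congrArg (fun f : (ResidueField Sg.𝒪)[X] => f.coeff 0) h1
  have hexp : (X - C (alphaQ Sg.ρbar ℓ)) * (X - C b) =
      X ^ 2 - C (alphaQ Sg.ρbar ℓ + b) * X + C (alphaQ Sg.ρbar ℓ * b) := by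
    rw [C_add, C_mul]; ring
  rw [hexp] at e1 e0
  simp only [coeff_add, coeff_sub, coeff_X_pow, coeff_C_mul, coeff_X_one, coeff_C, coeff_X_zero] at e1 e0
  norm_num at e1 e0
  -- e1 : α + b = t, e0 : α b = 1
  have ht : tS Sg ℓ = aS Sg ℓ + b := by linear_combination e1
  have hab : aS Sg ℓ * b = 1 := e0
  refine ⟨?_, fun h2 => hne ?_⟩
  · rw [ht, mul_add, hab, sq]
  · have ha0 : aS Sg ℓ ≠ 0 := fun h0 => by rw [h0, zero_mul] at hab; exact zero_ne_one hab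
    apply mul_left_cancel₀ ha0
    rw [hab, ← sq, h2]


theorem not_dvd_M₀_of_notMem {ℓ : ℕ} (hℓ : ℓ.Prime) (h : ℓ ∉ Sg.S) : ¬ ℓ ∣ M₀ N := by
  intro hd
  rcases prime_dvd_M₀ hℓ hd with h2 | h2
  · exact h (Finset.mem_union_left _ (by rw [h2]; simp))
  · exact h (Finset.mem_union_right _ h2)

theorem ne_p_of_notMem {ℓ : ℕ} (h : ℓ ∉ Sg.S) : ℓ ≠ P.p := by
  rintro rfl
  exact h (Finset.mem_union_left _ (by simp))

/-- **`TWControlStmt` at a Taylor–Wiles set** -/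
theorem exists_twData (hTW : B1.TWControlStmt) (hH : HubHyp Sg) {r : ℕ} (n : ℕ) (qv : Fin r → ℕ)
    (hinj : Function.Injective qv)
    (hqv : ∀ i, (qv i).Prime ∧ qv i ∉ Sg.S ∧ P.p ^ (n + 1) ∣ qv i - 1)
    (hfrob : ∀ i, ∀ A : ValuationSubring Qb, A.LiesOverPrime (qv i) →
      ∀ φ : GQ, A.IsFrobeniusAt φ (qv i) →
        ∃ α β : ResidueField Sg.𝒪, α ≠ β ∧
          LinearMap.charpoly (Sg.ρbar.ρ φ) = (X - C α) * (X - C β))
    [NeZero (M₀ N * (QL qv).prod)] (hcop : (M₀ N).Coprime (QL qv).prod) :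
    Nonempty (TWData P.p (χ₀ P N) (QL qv) hcop (kapQ P n qv) (tS Sg) (aS Sg)) := by
  obtain ⟨ϖ, hϖ⟩ := IsDiscreteValuationRing.exists_irreducible Sg.𝒪
  have h1 : ∀ i, ((qv i : ℕ) : ResidueField Sg.𝒪) = 1 := fun i =>
    natCast_eq_one_of_dvd Sg (hqv i).1.pos
      (dvd_trans (dvd_pow_self P.p (Nat.succ_ne_zero n)) (hqv i).2.2)
  have hrel : ∀ i, aS Sg (qv i) * tS Sg (qv i) = aS Sg (qv i) ^ 2 + 1 ∧ aS Sg (qv i) ^ 2 ≠ 1 :=
    fun i => alpha_rel Sg (hqv i).1 (ne_p_of_notMem Sg (hqv i).2.1).symm (h1 i)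
      (hfrob i _ (primeLocalPlace_liesOverPrime ⟨qv i, (hqv i).1⟩)
        _ (globFrobAt_isFrobeniusAt ⟨qv i, (hqv i).1⟩))
  refine nonempty_twData P.p (χ₀ P N) (QL qv) hcop (kapQ P n qv) (tS Sg) (aS Sg) hTW Sg.hp2
    hϖ.maximalIdeal_eq hϖ.ne_zero Sg.hp𝒪 (isPGroup_deltaGrp P.p (aT N))
    (isPGroup_deltaGrp P.p (aQ r n)) (QL_nodup qv hinj) ?_ ?_ ?_ ?_
  · intro q hq
    obtain ⟨i, rfl⟩ := (mem_QL qv).1 hq
    exact ⟨(hqv i).1, not_dvd_M₀_of_notMem Sg (hqv i).1 (hqv i).2.1,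
      ne_p_of_notMem Sg (hqv i).2.1, h1 i⟩
  · intro q hq
    obtain ⟨i, rfl⟩ := (mem_QL qv).1 hq
    exact (hrel i).1
  · intro q hq
    obtain ⟨i, rfl⟩ := (mem_QL qv).1 hq
    exact (hrel i).2
  · obtain ⟨ℓ₀, hℓ₀, hℓ₀S, -, hne⟩ := hH.hne 1 Nat.one_pos (Sg.S ∪ Finset.univ.image qv)
    have hS : ℓ₀ ∉ Sg.S := fun h => hℓ₀S (Finset.mem_union_left _ h)
    refine ⟨⟨ℓ₀, hℓ₀, not_dvd_M₀_of_notMem Sg hℓ₀ hS, ne_p_of_notMem Sg hS⟩, ?_, hne⟩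
    intro hQ
    obtain ⟨i, hi⟩ := (mem_QL qv).1 hQ
    exact hℓ₀S (Finset.mem_union_right _ (Finset.mem_image.2 ⟨i, Finset.mem_univ i, hi⟩))

end TWHyp


/-! ### the bridge is local -/

theorem beta_local {r : ℕ} (n : ℕ) (qv : Fin r → ℕ) [NeZero (M₀ N * (QL qv).prod)]
    (hcop : (M₀ N).Coprime (QL qv).prod) (hgoodQ : (HQ Sg n qv hcop).Good P.p)
    {R : Type} [CommRing R] [IsLocalRing R] (β : R →+* TQ Sg n qv hcop) :
    ∀ x ∈ maximalIdeal R, β x ∈ @maximalIdeal (TQ Sg n qv hcop) _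
      ((HQ Sg n qv hcop).isLocalRing_hecke (JQ P.p (M₀ N) (QL qv)) hgoodQ) := by
  letI := (HQ Sg n qv hcop).isLocalRing_hecke (JQ P.p (M₀ N) (QL qv)) hgoodQ
  haveI := (HQ Sg n qv hcop).finite_residueField_hecke (JQ P.p (M₀ N) (QL qv)) hgoodQ
  haveI := Fermat.Agent.S43lib.B0.EndBlock.isLocalHom_of_finite_residueField β
  intro x hx
  rw [mem_maximalIdeal, mem_nonunits_iff] at hx ⊢
  exact fun hu => hx (isUnit_of_map_unit β x hu)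

/-! ### the block -/

/-- **Block SIDE** from local–global compatibility at the points and Taylor–Wiles control. -/
theorem sideBlock_of (hLGC : LGCPointStmt) (hTW : B1.TWControlStmt) : SideBlock := by
  intro P N q hcond hpN hq hq2 hqN hirr hmin hT h2
  have hmod : P.ModularRepOfLevel N := hmin.1
  have hN0 : N ≠ 0 := hcond.pos.ne'
  obtain ⟨Sg⟩ := nonempty_sideGal P N hcond hpN hirr hmod hT
  have hH : HubHyp Sg :=
    { hpN := hpN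
      hT1 := fun v hv => by
        obtain ⟨h1, h2, -, h3⟩ := mem_oddPrimes.1 hv
        exact (hT v h1 h3 h2).2.1
      hθ := hubHyp_hθ Sg
      ha := hubHyp_ha Sg
      hne := hubHyp_hne Sg hirr
      nontriv := nontrivial_M0 Sg hcond hpN hirr hmod hT }
  haveI := hH.nontriv
  -- the base level
  have hqv0 : ∀ i : Fin 0, ((Fin.elim0 : Fin 0 → ℕ) i).Prime ∧
      (Fin.elim0 : Fin 0 → ℕ) i ∉ Sg.S ∧ P.p ^ (0 + 1) ∣ (Fin.elim0 : Fin 0 → ℕ) i - 1 :=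
    fun i => i.elim0
  haveI : NeZero (M₀ N * (QL (Fin.elim0 : Fin 0 → ℕ)).prod) :=
    ⟨M₀_mul_QL_ne_zero fun i => i.elim0⟩
  have hcop0 : (M₀ N).Coprime (QL (Fin.elim0 : Fin 0 → ℕ)).prod :=
    M₀_coprime_QL (P := P) fun i => i.elim0
  obtain ⟨D0⟩ := exists_twData Sg hTW hH 0 (Fin.elim0 : Fin 0 → ℕ) (fun i => i.elim0) hqv0
    (fun i => i.elim0) hcop0
  have hgood0 : (H0 Sg).Good P.p := D0.good0 Sg.hp𝒪 (isPGroup_deltaGrp P.p (aT N))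
  obtain ⟨β₀, hβ₀⟩ := exists_beta0 Sg hH hgood0
  refine ⟨sideBase Sg hpN hq hq2 hqN hN0 hirr hT D0.r D0.r_pos hgood0 β₀
    (fun 𝔭 h𝔭 hG hp htr =>
      readout_of Sg hH hcond hq hq2 hqN hirr hmod hT h2 hgood0 β₀ hβ₀ 𝔭 h𝔭 hG hp htr), ?_⟩
  intro r n qv hinj hqv hfrob hr3
  have hqv' : ∀ i, (qv i).Prime ∧ qv i ∉ ({P.p, 2} ∪ oddPrimes N : Finset ℕ) :=
    fun i => ⟨(hqv i).1, (hqv i).2.1⟩
  haveI : NeZero (M₀ N * (QL qv).prod) := ⟨M₀_mul_QL_ne_zero fun i => (hqv i).1⟩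
  have hcop : (M₀ N).Coprime (QL qv).prod := M₀_coprime_QL (P := P) hqv'
  obtain ⟨D⟩ := exists_twData Sg hTW hH n qv hinj hqv hfrob hcop
  have hgoodQ : (HQ Sg n qv hcop).Good P.p :=
    D.goodQ Sg.hp𝒪 (isPGroup_deltaGrp P.p (aT N)) (isPGroup_deltaGrp P.p (aQ r n))
  have hS' : Sg.good (SQ P N qv) := Sg.hgoodQ r qv fun i => ⟨(hqv i).1, (hqv i).2.1⟩
  obtain ⟨β, hβ⟩ := exists_betaQ Sg hH n qv hinj hqv hcop hgoodQ hS'
  haveI := D.free_modQ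
  exact ⟨sideLevel Sg n qv hcop hpN hq hq2 hqN hN0 hirr hT D0.r D0.r_pos hgood0 β₀ _
    (fun i => (hqv i).1) hS' D (D.r_eq.trans D0.r_eq.symm) hgoodQ β
    (fun x hx => beta_local Sg n qv hcop hgoodQ
      (β : (Sg.F (SQ P N qv) hS').R →+* TQ Sg n qv hcop) x hx)
    (tr_T_of Sg hLGC hH hirr n qv hinj hqv hcop hgoodQ hS' D.free_modQ β hβ)
    (tr_Q_of Sg hLGC hH hirr n qv hinj hqv hcop hgoodQ hS' D.free_modQ β hβ)
    (compat_of Sg hH n qv hinj hqv hcop hgoodQ hgood0 hS' D β hβ β₀ hβ₀)⟩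

end Fermat.Agent.S43lib.Mod4.Hub
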